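import Fermat.Agent.PicFlat.RRDim
import Fermat.Agent.GoodRed.Red

/-!
# Derivations and orders on a curve
-/

set_option autoImplicit false
set_option linter.unusedSectionVars false

noncomputable section

namespace Fermat.Agent.PicZ

open Polynomial AlgebraicCurve Fermat.Agent.Curves Module IntermediateField
open Fermat.Agent.GoodRed Fermat.Agent.PicFlat

variable {k E : Type*} [Field k] [Field E] [Algebra k E] [IsFunctionField k E] [IsAlgClosed k]

/-- order at least `m` -/
def GeO (Q : Place k E) (m : ℤ) (x : E) : Prop := x = 0 ∨ m ≤ Q.ord x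

theorem GeO.add {Q : Place k E} {m : ℤ} {x y : E} (hx : GeO Q m x) (hy : GeO Q m y) :
    GeO Q m (x + y) := by
  rcases eq_or_ne x 0 with rfl | hx0
  · rwa [zero_add]
  rcases eq_or_ne y 0 with rfl | hy0
  · rwa [add_zero]
  rcases eq_or_ne (x + y) 0 with h | h
  · exact Or.inl h
  right
  have h1 := ord_add Q h hx0 hy0
  exact (le_min (hx.resolve_left hx0) (hy.resolve_left hy0)).trans h1

theorem GeO.neg {Q : Place k E} {m : ℤ} {x : E} (hx : GeO Q m x) : GeO Q m (-x) := by
  rcases hx with rfl | hx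
  · left; rw [neg_zero]
  · right; rwa [ord_neg]

theorem GeO.sub {Q : Place k E} {m : ℤ} {x y : E} (hx : GeO Q m x) (hy : GeO Q m y) :
    GeO Q m (x - y) := by
  rw [sub_eq_add_neg]
  exact hx.add hy.neg

theorem GeO.mul {Q : Place k E} {m n : ℤ} {x y : E} (hx : GeO Q m x) (hy : GeO Q n y) :
    GeO Q (m + n) (x * y) := by
  rcases eq_or_ne x 0 with rfl | hx0
  · left; rw [zero_mul]
  rcases eq_or_ne y 0 with rfl | hy0
  · left; rw [mul_zero]
  right
  rw [Q.ord_mul hx0 hy0]
  exact add_le_add (hx.resolve_left hx0) (hy.resolve_left hy0)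

theorem geO_zero_iff {Q : Place k E} {x : E} : GeO Q 0 x ↔ x ∈ Q.toValuationSubring := by
  rcases eq_or_ne x 0 with rfl | hx0
  · exact ⟨fun _ => zero_mem _, fun _ => Or.inl rfl⟩
  · rw [mem_iff_ord Q hx0]
    exact ⟨fun h => h.resolve_left hx0, Or.inr⟩

/-- fractions with denominator prime to a place -/
theorem exists_loc_frac {t : E} (ht : Transcendental k t) {Q : Place k E}
    (hQ : t ∈ Q.toValuationSubring) {x : E} (hx : x ∈ Q.toValuationSubring) :
    ∃ b : E, b ≠ 0 ∧ b ∈ affineRing k t ∧ Q.ord b = 0 ∧ b * x ∈ affineRing k t := by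
  classical
  rcases eq_or_ne x 0 with rfl | hx0
  · exact ⟨1, one_ne_zero, Subalgebra.one_mem _, Place.ord_one _, by
      rw [mul_zero]; exact Subalgebra.zero_mem _⟩
  obtain ⟨g, c, hRR⟩ := exists_RR (k := k) (F := E)
  -- the negative part of the divisor of `x`
  set Nx : Divisor k E := poleDivisor x with hNx
  have ht0 : t ≠ 0 := fun h => ht (h ▸ isAlgebraic_zero)
  have hpos : 0 < Divisor.degree (poleDivisor (k := k) t) := by
    have := finiteDimensional_adjoin_simple (k := k) ht
    rw [degree_poleDivisor ht]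
    exact_mod_cast Module.finrank_pos (R := k⟮t⟯) (M := E)
  obtain ⟨n, hn⟩ : ∃ n : ℕ, c + 1 ≤ Divisor.degree (n • poleDivisor (k := k) t - Nx) := by
    refine ⟨(c + 1 + Divisor.degree Nx).toNat, ?_⟩
    rw [map_sub, map_nsmul, nsmul_eq_mul]
    have h3 := Int.self_le_toNat (c + 1 + Divisor.degree Nx)
    nlinarith [Int.natCast_nonneg (c + 1 + Divisor.degree Nx).toNat]
  obtain ⟨b, hb, hb0, hbQ⟩ := hRR.bpf hn Q
  have hpole : ∀ v : Place k E, t ∈ v.toValuationSubring → poleDivisor (k := k) t v = 0 := by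
    intro v hv
    have := (mem_iff_ord v ht0).1 hv
    rw [poleDivisor_apply]
    exact max_eq_left (by omega)
  have hb1 := (mem_iff_of_ne hb0).1 hb
  refine ⟨b, hb0, ?_, ?_, ?_⟩
  · intro v hv
    rw [mem_iff_ord v hb0]
    have h1 := hb1 v
    rw [Finsupp.sub_apply, Finsupp.smul_apply, hpole v hv, smul_zero, zero_sub] at h1
    have h2 := poleDivisor_nonneg (k := k) x v
    change (0 : ℤ) ≤ Nx v at h2
    omega
  · rw [hbQ, Finsupp.sub_apply, Finsupp.smul_apply, hpole Q hQ, smul_zero, hNx, poleDivisor_apply]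
    have := (mem_iff_ord Q hx0).1 hx
    rw [max_eq_left (by omega)]
    ring
  · intro v hv
    rw [mem_iff_ord v (mul_ne_zero hb0 hx0), v.ord_mul hb0 hx0]
    have h1 := hb1 v
    rw [Finsupp.sub_apply, Finsupp.smul_apply, hpole v hv, smul_zero, zero_sub, hNx,
      poleDivisor_apply] at h1
    have h2 : -v.ord x ≤ max 0 (-v.ord x) := le_max_right _ _
    omega

/-- a bound for a derivation on the affine ring is a bound on the local ring -/
theorem geO_of_affine {δ : E → E} (hδ : ∀ x y, δ (x * y) = x * δ y + y * δ x) {t : E}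
    (ht : Transcendental k t) {Q : Place k E} (hQ : t ∈ Q.toValuationSubring) {m : ℤ}
    (h : ∀ a ∈ affineRing k t, GeO Q m (δ a)) {x : E} (hx : x ∈ Q.toValuationSubring) :
    GeO Q m (δ x) := by
  obtain ⟨b, hb0, hb, hbQ, hbx⟩ := exists_loc_frac ht hQ hx
  have h1 := hδ b x
  have h2 : δ x = b⁻¹ * (δ (b * x) - x * δ b) := by
    rw [h1]
    field_simp
    ring
  rw [h2]
  have h3 : GeO Q 0 b⁻¹ := by
    right; rw [Q.ord_inv, hbQ, neg_zero]
  have h4 : GeO Q m (x * δ b) := by
    have := (geO_zero_iff.2 hx).mul (h b hb)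
    rwa [zero_add] at this
  have h5 := h3.mul ((h _ hbx).sub h4)
  rwa [zero_add] at h5

/-- powers and derivations -/
theorem der_pow {δ : E → E} (hδ : ∀ x y, δ (x * y) = x * δ y + y * δ x) (x : E) (n : ℕ) :
    δ (x ^ n) = n * x ^ (n - 1) * δ x := by
  have h1 : δ 1 = 0 := by
    have := hδ 1 1
    rw [mul_one, one_mul] at this
    linear_combination -this
  induction n with
  | zero => rw [pow_zero, h1]; simp
  | succ n ih =>
    rw [pow_succ, hδ, ih]
    rcases n with _ | n
    · simp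
    · rw [Nat.add_sub_cancel, Nat.add_sub_cancel]
      push_cast
      ring

/-- logarithmic derivatives of functions with divisor divisible by `p` -/
theorem geO_dlog {δ : E → E} (hδ : ∀ x y, δ (x * y) = x * δ y + y * δ x) {p : ℕ} [Fact p.Prime]
    [CharP k p] {Q : Place k E} {m : ℤ} (h : ∀ x ∈ Q.toValuationSubring, GeO Q m (δ x))
    {v : E} (hv0 : v ≠ 0) (hv : (p : ℤ) ∣ Q.ord v) : GeO Q m (δ v / v) := by
  have : CharP E p := charP_of_injective_algebraMap (algebraMap k E).injective p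
  obtain ⟨s, hs0, hs⟩ := exists_ord_eq Q (-Q.ord v / p)
  set u := s ^ p * v with hu
  have hu0 : u ≠ 0 := mul_ne_zero (pow_ne_zero _ hs0) hv0
  have huQ : Q.ord u = 0 := by
    rw [hu, Q.ord_mul (pow_ne_zero _ hs0) hv0, ord_pow, hs]
    obtain ⟨n, hn⟩ := hv
    have hp0 : (p : ℤ) ≠ 0 := by exact_mod_cast (Fact.out : p.Prime).ne_zero
    rw [hn, ← mul_neg, Int.mul_ediv_cancel_left _ hp0]
    ring
  have h1 : δ v / v = u⁻¹ * δ u := by
    have h2 : δ u = s ^ p * δ v := by
      rw [hu, hδ, der_pow hδ, CharP.cast_eq_zero, zero_mul, zero_mul, mul_zero, add_zero]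
    rw [h2, hu]
    have := pow_ne_zero p hs0
    field_simp
  rw [h1]
  have h3 : GeO Q 0 u⁻¹ := by
    right; rw [Q.ord_inv, huQ, neg_zero]
  have h4 := h3.mul (h u ((mem_iff_ord Q hu0).2 huQ.ge))
  rwa [zero_add] at h4

theorem mem_RR_iff {D : Divisor k E} {x : E} :
    x ∈ riemannRochSpace D ↔ ∀ Q : Place k E, GeO Q (-D Q) x := by
  rcases eq_or_ne x 0 with rfl | hx0
  · exact ⟨fun _ Q => Or.inl rfl, fun _ => Submodule.zero_mem _⟩
  · rw [mem_iff_of_ne hx0]
    refine forall_congr' fun Q => ?_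
    constructor
    · intro h; right; omega
    · intro h
      have := h.resolve_left hx0
      omega

end Fermat.Agent.PicZ
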