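import Fermat.Agent.PicFlat.RRDim

/-!
# Clifford's inequality
-/

set_option autoImplicit false

noncomputable section

namespace Fermat.Agent.PicZ

open AlgebraicCurve IntermediateField Fermat.Agent.Curves Fermat.Agent.GoodRed Fermat.Agent.PicFlat

variable {k F : Type*} [Field k] [Field F] [Algebra k F] [IsFunctionField k F] [IsAlgClosed k]

theorem ell_zero : ell (0 : Divisor k F) = 1 := by
  have h1 : riemannRochSpace (0 : Divisor k F) = Submodule.span k {(1 : F)} := by
    apply le_antisymm riemannRochSpace_zero_le
    rw [Submodule.span_singleton_le_iff_mem, mem_iff_of_ne one_ne_zero]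
    intro v
    rw [Place.ord_one, Finsupp.zero_apply, add_zero]
  rw [ell, h1, finrank_span_singleton one_ne_zero]

open Finsupp in
theorem ell_single_succ (D : Divisor k F) (P : Place k F) (n : ℤ) :
    ell (D + single P n) ≤ ell (D + single P (n + 1)) ∧
      ell (D + single P (n + 1)) ≤ ell (D + single P n) + 1 := by
  have e : D + single P (n + 1) = (D + single P n) + single P 1 := by
    rw [add_assoc, ← single_add]
  have h0 : (0 : Divisor k F) ≤ single P 1 := single_nonneg.mpr zero_le_one
  constructor
  · rw [e]
    exact ell_mono (le_add_of_nonneg_right h0)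
  · rw [e]
    have := ell_add_le (D + single P n) (single P 1) h0
    rw [degree_single_one] at this
    omega

/-- a function realising a jump -/
theorem exists_jump {D : Divisor k F} {P : Place k F} {n : ℤ}
    (h : ell (D + Finsupp.single P n) < ell (D + Finsupp.single P (n + 1))) :
    ∃ f : F, f ≠ 0 ∧ P.ord f = -(D P + n + 1) ∧ ∀ v, v ≠ P → 0 ≤ v.ord f + D v := by
  classical
  have hnot : ¬ riemannRochSpace (D + Finsupp.single P (n + 1)) ≤
      riemannRochSpace (D + Finsupp.single P n) := by
    intro hle
    have := Submodule.finrank_mono hle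
    exact absurd this (not_le.mpr h)
  obtain ⟨f, hf, hf'⟩ := Set.not_subset.mp hnot
  have hf0 : f ≠ 0 := by
    rintro rfl
    exact hf' (Submodule.zero_mem _)
  have h1 := (mem_iff_of_ne hf0).1 hf
  have h2 : ∀ v, v ≠ P → 0 ≤ v.ord f + D v := by
    intro v hv
    have := h1 v
    rwa [Finsupp.add_apply, Finsupp.single_eq_of_ne hv, add_zero] at this
  refine ⟨f, hf0, ?_, h2⟩
  have h3 := h1 P
  rw [Finsupp.add_apply, Finsupp.single_eq_same] at h3
  by_contra hne
  apply hf'
  change f ∈ riemannRochSpace (D + Finsupp.single P n)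
  rw [mem_iff_of_ne hf0]
  intro v
  rw [Finsupp.add_apply]
  by_cases hv : v = P
  · subst hv
    rw [Finsupp.single_eq_same]
    omega
  · rw [Finsupp.single_eq_of_ne hv, add_zero]
    exact h2 v hv

theorem jump_of {D : Divisor k F} {P : Place k F} {n : ℤ} {f : F} (hf0 : f ≠ 0)
    (h1 : P.ord f = -(D P + n + 1)) (h2 : ∀ v, v ≠ P → 0 ≤ v.ord f + D v) :
    ell (D + Finsupp.single P n) < ell (D + Finsupp.single P (n + 1)) := by
  classical
  have hle : riemannRochSpace (D + Finsupp.single P n) ≤
      riemannRochSpace (D + Finsupp.single P (n + 1)) := by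
    apply riemannRochSpace_mono
    apply add_le_add_right
    exact Finsupp.single_le_single.mpr (by omega)
  refine Submodule.finrank_lt_finrank_of_lt (lt_of_le_of_ne hle ?_)
  intro heq
  have hf : f ∈ riemannRochSpace (D + Finsupp.single P (n + 1)) := by
    rw [mem_iff_of_ne hf0]
    intro v
    rw [Finsupp.add_apply]
    by_cases hv : v = P
    · subst hv
      rw [Finsupp.single_eq_same]
      omega
    · rw [Finsupp.single_eq_of_ne hv, add_zero]
      exact h2 v hv
  rw [← heq, mem_iff_of_ne hf0] at hf
  have := hf P
  rw [Finsupp.add_apply, Finsupp.single_eq_same] at this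
  omega

theorem degree_add_single (D : Divisor k F) (P : Place k F) (n : ℤ) :
    Divisor.degree (D + Finsupp.single P n) = Divisor.degree D + n := by
  rw [map_add, degree_single_one]

open Finset Pointwise in
theorem clifford {g c : ℤ} (h : RR k F g c) {D : Divisor k F} (h1 : 1 ≤ ell D)
    (h2 : Divisor.degree D + 1 - g < ell D) : 2 * (ell D : ℤ) ≤ Divisor.degree D + 2 := by
  classical
  obtain ⟨fb, hfb0, hfb⟩ : ∃ f : F, f ≠ 0 ∧ Transcendental k f := by
    obtain ⟨x, hx, -⟩ := (inferInstance : IsFunctionField k F).1
    refine ⟨x, ?_, hx⟩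
    rintro rfl
    exact hx isAlgebraic_zero
  obtain ⟨P, -⟩ := exists_ord_pos_of_transcendental hfb
  -- numeric functions
  set a : ℕ → ℕ := fun j => ell (D + Finsupp.single P (-(j : ℤ))) with ha
  set b : ℕ → ℕ := fun n => ell (D + Finsupp.single P (n : ℤ)) with hb
  set e : ℕ → ℕ := fun l => ell ((0 : Divisor k F) + Finsupp.single P (l : ℤ)) with he
  have ha1 : ∀ j, a (j + 1) ≤ a j ∧ a j ≤ a (j + 1) + 1 := by
    intro j
    have := ell_single_succ D P (-((j + 1 : ℕ) : ℤ))
    have e1 : -((j + 1 : ℕ) : ℤ) + 1 = -(j : ℤ) := by push_cast; ring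
    rw [e1] at this
    exact this
  have hb1 : ∀ j, b j ≤ b (j + 1) ∧ b (j + 1) ≤ b j + 1 := by
    intro j
    have := ell_single_succ D P (j : ℤ)
    simp only [hb]
    push_cast
    exact this
  have he1 : ∀ j, e j ≤ e (j + 1) ∧ e (j + 1) ≤ e j + 1 := by
    intro j
    have := ell_single_succ (0 : Divisor k F) P (j : ℤ)
    simp only [he]
    push_cast
    exact this
  have ha0 : a 0 = ell D := by simp [ha]
  have hb0 : b 0 = ell D := by simp [hb]
  have he0 : e 0 = 1 := by simp [he, ell_zero]
  -- large values
  obtain ⟨N₁, hN₁⟩ : ∃ N : ℕ, Divisor.degree D < N := ⟨(Divisor.degree D).toNat + 1, by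
    have := Int.self_le_toNat (Divisor.degree D)
    push_cast; omega⟩
  have haN : a N₁ = 0 := by
    apply ell_eq_zero
    rw [degree_add_single]
    omega
  obtain ⟨N₂, hN₂, hN₂'⟩ : ∃ N : ℕ, c ≤ Divisor.degree D + N ∧ c ≤ N := by
    refine ⟨(c - Divisor.degree D).toNat + c.toNat, ?_, ?_⟩
    · have := Int.self_le_toNat (c - Divisor.degree D)
      have h3 : (0 : ℤ) ≤ c.toNat := Int.natCast_nonneg _
      push_cast; omega
    · have := Int.self_le_toNat c
      push_cast; omega
  have hbN : (b N₂ : ℤ) = Divisor.degree D + N₂ + 1 - g := by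
    have := h.eq (D + Finsupp.single P (N₂ : ℤ)) (by rw [degree_add_single]; exact hN₂)
    rw [degree_add_single] at this
    exact this
  have heN : (e (N₁ + N₂) : ℤ) = (N₁ + N₂ : ℕ) + 1 - g := by
    have := h.eq ((0 : Divisor k F) + Finsupp.single P ((N₁ + N₂ : ℕ) : ℤ)) (by
      rw [degree_add_single, map_zero]
      push_cast
      have : (0 : ℤ) ≤ N₁ := Int.natCast_nonneg _
      omega)
    rw [degree_add_single, map_zero] at this
    have h9 : (e (N₁ + N₂) : ℤ) = 0 + ((N₁ + N₂ : ℕ) : ℤ) + 1 - g := this
    rw [h9]
    ring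
  -- the jump sets
  set J := (range N₁).filter fun j => a (j + 1) < a j with hJ
  set K := (range N₂).filter fun j => b (j + 1) = b j with hK
  set L := (range (N₁ + N₂)).filter fun j => e (j + 1) = e j with hL
  have cJ : ∀ n, (a n : ℤ) = a 0 - ((range n).filter fun j => a (j + 1) < a j).card := by
    intro n
    induction n with
    | zero => simp
    | succ n ih =>
      rw [range_add_one, filter_insert]
      obtain ⟨h3, h4⟩ := ha1 n
      split_ifs with h5
      · rw [card_insert_of_notMem (by simp)]
        push_cast
        omega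
      · omega
  have cK : ∀ n, (b n : ℤ) = b 0 + n - ((range n).filter fun j => b (j + 1) = b j).card := by
    intro n
    induction n with
    | zero => simp
    | succ n ih =>
      rw [range_add_one, filter_insert]
      obtain ⟨h3, h4⟩ := hb1 n
      split_ifs with h5
      · rw [card_insert_of_notMem (by simp)]
        push_cast
        omega
      · push_cast
        omega
  have cL : ∀ n, (e n : ℤ) = e 0 + n - ((range n).filter fun j => e (j + 1) = e j).card := by
    intro n
    induction n with
    | zero => simp
    | succ n ih =>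
      rw [range_add_one, filter_insert]
      obtain ⟨h3, h4⟩ := he1 n
      split_ifs with h5
      · rw [card_insert_of_notMem (by simp)]
        push_cast
        omega
      · push_cast
        omega
  have hJc : (J.card : ℤ) = ell D := by
    have := cJ N₁
    rw [haN, ha0, ← hJ] at this
    push_cast at this
    omega
  have hKc : (K.card : ℤ) = ell D - (Divisor.degree D + 1 - g) := by
    have := cK N₂
    rw [hbN, hb0, ← hK] at this
    omega
  have hLc : (L.card : ℤ) = g := by
    have := cL (N₁ + N₂)
    rw [heN, he0, ← hL] at this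
    push_cast at this
    omega
  -- the sumset
  have hsub : ∀ j ∈ J, ∀ n ∈ K, j + n ∈ L := by
    intro j hj n hn
    rw [hJ, mem_filter, mem_range] at hj
    rw [hK, mem_filter, mem_range] at hn
    rw [hL, mem_filter, mem_range]
    refine ⟨by omega, ?_⟩
    by_contra hne
    obtain ⟨h3, h4⟩ := he1 (j + n)
    have h5 : e (j + n) < e (j + n + 1) := lt_of_le_of_ne h3 (Ne.symm hne)
    simp only [he] at h5
    push_cast at h5
    obtain ⟨w, hw0, hw1, hw2⟩ := exists_jump h5
    have h6 : ell (D + Finsupp.single P (-(j : ℤ) - 1)) <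
        ell (D + Finsupp.single P (-(j : ℤ) - 1 + 1)) := by
      have h7 := hj.2
      simp only [ha] at h7
      convert h7 using 4
      · push_cast; ring
      · ring
    obtain ⟨f, hf0, hf1, hf2⟩ := exists_jump h6
    have h8 : ell (D + Finsupp.single P (n : ℤ)) < ell (D + Finsupp.single P ((n : ℤ) + 1)) := by
      refine jump_of (f := w * f) (mul_ne_zero hw0 hf0) ?_ fun v hv => ?_
      · rw [P.ord_mul hw0 hf0, hw1, hf1, Finsupp.zero_apply]
        push_cast
        ring
      · rw [v.ord_mul hw0 hf0]
        have h9 := hw2 v hv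
        have h10 := hf2 v hv
        rw [Finsupp.zero_apply] at h9
        omega
    have h11 := hn.2
    simp only [hb] at h11
    push_cast at h11
    omega
  have hJne : J.Nonempty := by
    rw [← card_pos]
    omega
  have hKne : K.Nonempty := by
    rw [← card_pos]
    omega
  have hcd := cauchy_davenport_add_of_linearOrder_isCancelAdd hJne hKne
  have hle : (J + K).card ≤ L.card := by
    apply card_le_card
    intro x hx
    obtain ⟨j, hj, n, hn, rfl⟩ := mem_add.mp hx
    exact hsub j hj n hn
  omega

end Fermat.Agent.PicZ
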