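import Fermat.Agent.GenusX0.Genus
import Fermat.Agent.PicZ.Cliff
import Fermat.Agent.PicFlat.Unram

/-!
# The canonical divisor of `X₀(N)` in characteristic zero
-/

set_option autoImplicit false
set_option linter.unusedSectionVars false

noncomputable section

open ModularCurve UpperHalfPlane IntermediateField AlgebraicCurve
open scoped MatrixGroups KaehlerDifferential

namespace Fermat.Agent.PicZ

open Fermat.Agent.ModFun Fermat.Agent.DimS2 Fermat.Agent.Curves Fermat.Agent.GenusX0
open Fermat.Agent.PicFlat

section Gen

variable {k F : Type*} [Field k] [IsAlgClosed k] [CharZero k] [Field F] [Algebra k F]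
  [IsFunctionField k F]

theorem exists_smul_D {J : F} (hJ : Transcendental k J) (ω : Ω[F⁄k]) :
    ∃ d : F, d • KaehlerDifferential.D k F J = ω := by
  have hmem : ω ∈ Submodule.span F {KaehlerDifferential.D k F J} := by
    rw [span_D_eq_top hJ]
    exact Submodule.mem_top
  exact Submodule.mem_span_singleton.mp hmem

theorem ordDifferential_smul_D {J : F} (hJD : KaehlerDifferential.D k F J ≠ 0) {d : F}
    (hd : d ≠ 0) (v : Place k F) : v.ordDifferential (d • KaehlerDifferential.D k F J) =
      v.ord d + v.ordDifferential (KaehlerDifferential.D k F J) := by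
  have : Nontrivial Ω[F⁄k] := ⟨⟨_, _, hJD⟩⟩
  have := dCoordGenerates v
  apply v.ordDifferential_smul hd
  intro h0
  have h2 := v.differentialCoeff_smul_dCoord (KaehlerDifferential.D k F J)
  rw [h0, zero_smul] at h2
  exact hJD h2.symm

theorem le_ord_delta {ι : k →+* ℂ} {J W d : F} (hJD : KaehlerDifferential.D k F J ≠ 0)
    (hd : d • KaehlerDifferential.D k F J = KaehlerDifferential.D k F W) (v : Place k F)
    {σ : F →+* LaurentSeries ℂ} (hσ : ∀ c, σ (algebraMap k F c) = HahnSeries.C (ι c))
    (hc : Centred σ v) (hv : W ∈ v.toValuationSubring) :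
    d = 0 ∨ -v.ordDifferential (KaehlerDifferential.D k F J) ≤ v.ord d := by
  by_cases hd0 : d = 0
  · exact Or.inl hd0
  right
  have h1 := ordDifferential_smul_D hJD hd0 v
  rw [hd] at h1
  obtain ⟨c, hc'⟩ := exists_residue v ((mem_iff_val v).mp hv)
  have hne : W - algebraMap k F c ≠ 0 := by
    intro h0
    rw [sub_eq_zero] at h0
    have h3 : KaehlerDifferential.D k F W = 0 := by
      rw [h0, Derivation.map_algebraMap]
    rw [h3] at hd
    rcases smul_eq_zero.mp hd with h4 | h4
    · exact hd0 h4
    · exact hJD h4
  have hpos : 0 < v.ord (W - algebraMap k F c) := by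
    rcases (val_lt_one_iff v).mp hc' with h3 | h3
    · exact absurd h3 hne
    · exact h3
  have h5 := ordDifferential_D_sub hσ hc (c := c) (f := W) (by omega)
  omega

theorem theta_of_smul {L : Type*} [Field L] {J W d : F}
    (hd : d • KaehlerDifferential.D k F J = KaehlerDifferential.D k F W)
    {σ : F →+* LaurentSeries L} {ι : k →+* L}
    (hσ : ∀ c, σ (algebraMap k F c) = HahnSeries.C (ι c)) :
    GenusX0.thetaFun (σ W) = σ d * GenusX0.thetaFun (σ J) := by
  have h2 := congrArg (thetaDer σ ι hσ).liftKaehlerDifferential hd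
  rw [map_smul, Derivation.liftKaehlerDifferential_comp_D,
    Derivation.liftKaehlerDifferential_comp_D] at h2
  exact h2.symm

end Gen

variable {k : Type*} [Field k] [IsAlgClosed k] [CharZero k] (ι : k →+* ℂ) {N : ℕ} [NeZero N]

local notation "FN" => modularFunctionFieldFullC k N

include ι in
theorem exists_can : ∃ K : Divisor k FN,
    ∀ v, K v = v.ordDifferential (KaehlerDifferential.D k FN (je k N)) := by
  classical
  have hj0 : je k N ≠ 0 := fun h => transcendental_je (k := k) (N := N) (h ▸ isAlgebraic_zero)
  have hfin : (Function.support fun v : Place k FN =>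
      v.ordDifferential (KaehlerDifferential.D k FN (je k N))).Finite := by
    refine Set.Finite.subset ((divisorOf (k := k) (je k N)).support.finite_toSet.union
      (divisorOf (k := k) (je k N - algebraMap k FN 1728)).support.finite_toSet) ?_
    intro v hv
    by_contra hcon
    rw [Set.mem_union, not_or, Finset.mem_coe, Finset.mem_coe, Finsupp.notMem_support_iff,
      Finsupp.notMem_support_iff, divisorOf_apply, divisorOf_apply] at hcon
    apply hv
    change v.ordDifferential (KaehlerDifferential.D k FN (je k N)) = 0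
    rcases place_cases v with h3 | ⟨c, hc⟩
    · omega
    · have hc0 : c ≠ 0 := by
        rintro rfl
        rw [map_zero, sub_zero] at hc
        omega
      have hc1 : c ≠ 1728 := by
        rintro rfl
        omega
      have h4 := ord_je_sub_le_one v ι hc0 hc1
      rw [ordDiff_je_pos v ι hc]
      omega
  exact ⟨Finsupp.ofSupportFinite _ hfin, fun v => rfl⟩

include ι in
theorem hasCanon : HasCanonicalDivisor (K := k) (F := FN) := by
  obtain ⟨K, hK⟩ := exists_can (k := k) (N := N) ι
  constructor
  intro ω hω
  obtain ⟨f, hf⟩ := exists_smul_D (transcendental_je (k := k) (N := N)) ω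
  have hf0 : f ≠ 0 := by
    rintro rfl
    rw [zero_smul] at hf
    exact hω hf.symm
  refine ⟨divisorOf f + K, fun v => ?_⟩
  rw [Finsupp.add_apply, divisorOf_apply, hK, ← hf]
  exact (ordDifferential_smul_D (D_je_ne_zero (k := k) (N := N) ι) hf0 v).symm

/-- the dimension of the space of cusp forms -/
def gf (N : ℕ) : ℕ := Module.finrank ℂ (CuspForm (CongruenceSubgroup.Gamma0 N) 2)

/-- `K` is the divisor of `dj` -/
structure IsCan (K : Divisor k FN) : Prop where
  pos : ∀ (v : Place k FN) (c : k), 0 < v.ord (je k N - algebraMap k FN c) →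
    K v = v.ord (je k N - algebraMap k FN c) - 1
  neg : ∀ v : Place k FN, v.ord (je k N) < 0 → K v = v.ord (je k N) - 1
  deg : Divisor.degree K = 2 * (gf N : ℤ) - 2
  del : ∀ W : FN, ∃ d : FN, GenusX0.thetaFun (W : LaurentSeries k) =
      (d : LaurentSeries k) * GenusX0.thetaFun (je k N : LaurentSeries k) ∧
    ∀ v : Place k FN, W ∈ v.toValuationSubring → d = 0 ∨ -K v ≤ v.ord d

include ι in
theorem exists_isCan : ∃ K : Divisor k FN, IsCan K := by
  classical
  have := hasCanon (k := k) (N := N) ι
  have hJD := D_je_ne_zero (k := k) (N := N) ι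
  refine ⟨canonicalDivisorOf hJD, fun v c hc => ?_, fun v hv => ?_, ?_, fun W => ?_⟩
  · rw [canonicalDivisorOf_apply, ordDiff_je_pos v ι hc]
  · rw [canonicalDivisorOf_apply, ordDiff_je_neg v ι hv]
  · have h1 := degree_dj (k := k) (N := N) hJD ι
    have hS := S20.result N
    have h4 : (6 * Divisor.degree (canonicalDivisorOf hJD) : ℚ) =
        dedekindPsi N - 4 * nuThree N - 3 * nuTwo N - 6 * cuspCount N := by exact_mod_cast h1
    have h5 : (Divisor.degree (canonicalDivisorOf hJD) : ℚ) = 2 * gf N - 2 := by
      rw [gf, hS, genusFormula]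
      linear_combination h4 / 6
    exact_mod_cast h5
  · obtain ⟨d, hd⟩ := exists_smul_D (transcendental_je (k := k) (N := N))
      (KaehlerDifferential.D k FN W)
    refine ⟨d, ?_, fun v hv => ?_⟩
    · exact theta_of_smul (σ := algebraMap FN (LaurentSeries k)) (ι := RingHom.id k) hd
        (fun c => (algebraMap_laurentSeries_eq_single _ c).trans rfl)
    · rw [canonicalDivisorOf_apply]
      rcases place_cases v with h6 | ⟨c', hc'⟩
      · obtain ⟨x, hx⟩ := exists_centred (isLoc_cusp (N := N) ι) (v := v)
          (by rw [v.ord_inv]; omega)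
        exact le_ord_delta hJD hd v (sig_const ι (cuspUDN N) x) hx hv
      · obtain ⟨P, _, _, h3⟩ := exists_isLoc (N := N) ι c'
        obtain ⟨x, hx⟩ := exists_centred h3 hc'
        exact le_ord_delta hJD hd v (sig_const ι (P.toUDN N) x) hx hv

end Fermat.Agent.PicZ
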