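import Fermat.Agent.MazurP.Op

/-!
# Logarithmic derivatives and Hecke operators
-/

set_option autoImplicit false
set_option linter.unusedSectionVars false
set_option linter.style.haveILetI false

noncomputable section

namespace Fermat.Agent.PicZ

open AlgebraicCurve Fermat.Agent.Curves Fermat.Agent.GoodRed ModularCurve
open Fermat.Agent.HeckeQ Fermat.Agent.MazurP
open Fermat.Agent.ModFun Fermat.Agent.AnJac

local notation "ℒ" => LaurentSeries

section Ring

variable {R : Type*} [CommRing R]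

/-- `q d/dq` -/
def th : ℒ R →+ ℒ R where
  toFun G :=
    { coeff := fun n => (n : R) * G.coeff n
      isPWO_support' := by
        refine G.isPWO_support.mono fun n hn => ?_
        rw [Function.mem_support] at hn
        exact right_ne_zero_of_mul hn }
  map_zero' := by
    ext n
    show (n : R) * (0 : ℒ R).coeff n = (0 : ℒ R).coeff n
    rw [HahnSeries.coeff_zero, mul_zero]
  map_add' G H := by
    ext n
    show (n : R) * (G + H).coeff n = (n : R) * G.coeff n + (n : R) * H.coeff n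
    rw [HahnSeries.coeff_add, mul_add]

theorem th_coeff (G : ℒ R) (n : ℤ) : (th G).coeff n = (n : R) * G.coeff n := rfl

theorem support_th_subset (G : ℒ R) : (th G).support ⊆ G.support := by
  intro n hn
  rw [HahnSeries.mem_support, th_coeff] at hn
  rw [HahnSeries.mem_support]
  exact right_ne_zero_of_mul hn

theorem th_mul (G H : ℒ R) : th (G * H) = G * th H + H * th G := by
  ext n
  rw [th_coeff, HahnSeries.coeff_add, mul_comm H (th G),
    HahnSeries.coeff_mul_left' G.isPWO_support (support_th_subset G),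
    HahnSeries.coeff_mul_right' H.isPWO_support (support_th_subset H),
    HahnSeries.coeff_mul, Finset.mul_sum, ← Finset.sum_add_distrib]
  refine Finset.sum_congr rfl fun ij hij => ?_
  rw [Finset.mem_antidiagonal] at hij
  rw [th_coeff, th_coeff, ← hij.2.2]
  push_cast
  ring

theorem th_one : th (1 : ℒ R) = 0 := by
  ext n
  rw [th_coeff, HahnSeries.coeff_one, HahnSeries.coeff_zero]
  split_ifs with h
  · rw [h]; simp
  · rw [mul_zero]

theorem th_C (c : R) : th (HahnSeries.C c : ℒ R) = 0 := by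
  ext n
  rw [th_coeff, HahnSeries.C_apply, HahnSeries.coeff_single, HahnSeries.coeff_zero]
  split_ifs with h
  · simp [h]
  · simp

theorem th_pow (G : ℒ R) (n : ℕ) : th (G ^ (n + 1)) = (n + 1) • (G ^ n * th G) := by
  induction n with
  | zero => simp
  | succ n ih =>
    rw [pow_succ, th_mul, ih, nsmul_eq_mul, nsmul_eq_mul]
    push_cast
    ring

theorem coeffMap_th {R' : Type*} [CommRing R'] (φ : R →+* R') (G : ℒ R) :
    coeffMap φ (th G) = th (coeffMap φ G) := by
  ext n
  rw [coeffMap_coeff, th_coeff, th_coeff, coeffMap_coeff, map_mul, map_intCast]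

/-- `∑ a_n q^n ↦ ∑ a_{rn} q^n` -/
def Uf (r : ℕ) [NeZero r] : ℒ R →ₗ[R] ℒ R where
  toFun f := HahnSeries.ofSuppBddBelow (fun n => f.coeff ((r : ℤ) * n)) (by
    obtain ⟨b, hb⟩ : ∃ b : ℤ, ∀ n, n < b → f.coeff n = 0 := by
      rcases eq_or_ne f 0 with rfl | hf
      · exact ⟨0, fun n _ => rfl⟩
      · exact ⟨f.order, fun n hn => HahnSeries.coeff_eq_zero_of_lt_order hn⟩
    refine ⟨-|b|, ?_⟩
    intro n hn
    rw [Function.mem_support] at hn
    by_contra hlt
    push Not at hlt
    apply hn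
    apply hb
    have hr : (1 : ℤ) ≤ r := by exact_mod_cast Nat.pos_of_ne_zero (NeZero.ne r)
    have h0 : n < 0 := lt_of_lt_of_le hlt (by simp)
    have h1 : (r : ℤ) * n ≤ n := by nlinarith
    have h2 : -|b| ≤ b := neg_abs_le b
    omega)
  map_add' f g := by
    ext n
    simp only [HahnSeries.coeff_ofSuppBddBelow, HahnSeries.coeff_add]
  map_smul' c f := by
    ext n
    simp only [HahnSeries.coeff_ofSuppBddBelow, HahnSeries.coeff_smul, RingHom.id_apply]

theorem Uf_coeff (r : ℕ) [NeZero r] (f : ℒ R) (n : ℤ) :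
    (Uf r f).coeff n = f.coeff ((r : ℤ) * n) := by
  simp only [Uf, LinearMap.coe_mk, AddHom.coe_mk, HahnSeries.coeff_ofSuppBddBelow]

/-- `qExpand` is linear -/
def Vf (r : ℕ) [NeZero r] : ℒ R →ₗ[R] ℒ R where
  toFun f := qExpand R r f
  map_add' f g := map_add _ f g
  map_smul' c f := by
    ext n
    rw [RingHom.id_apply, HahnSeries.coeff_smul]
    by_cases hn : (r : ℤ) ∣ n
    · obtain ⟨m, rfl⟩ := hn
      rw [qExpand_coeff_mul, qExpand_coeff_mul, HahnSeries.coeff_smul]
    · rw [qExpand_coeff_of_not_dvd r _ hn, qExpand_coeff_of_not_dvd r _ hn, smul_zero]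

theorem Vf_apply (r : ℕ) [NeZero r] (f : ℒ R) : Vf r f = qExpand R r f := rfl

/-- the Hecke operator `T_r` in weight two, on `q`-expansions -/
def trA (r : ℕ) [NeZero r] : ℒ R →ₗ[R] ℒ R := (r : R) • Vf r + Uf r

theorem trA_apply (r : ℕ) [NeZero r] (f : ℒ R) : trA r f = (r : R) • qExpand R r f + Uf r f := rfl

theorem coeffMap_Uf {R' : Type*} [CommRing R'] (φ : R →+* R') (r : ℕ) [NeZero r] (f : ℒ R) :
    coeffMap φ (Uf r f) = Uf r (coeffMap φ f) := by
  ext n
  rw [coeffMap_coeff, Uf_coeff, Uf_coeff, coeffMap_coeff]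

theorem coeffMap_smul' {R' : Type*} [CommRing R'] (φ : R →+* R') (c : R) (f : ℒ R) :
    coeffMap φ (c • f) = φ c • coeffMap φ f := by
  ext n
  rw [coeffMap_coeff, HahnSeries.coeff_smul, HahnSeries.coeff_smul, coeffMap_coeff, smul_eq_mul,
    smul_eq_mul, map_mul]

theorem coeffMap_trA {R' : Type*} [CommRing R'] (φ : R →+* R') (r : ℕ) [NeZero r] (f : ℒ R) :
    coeffMap φ (trA r f) = trA r (coeffMap φ f) := by
  rw [trA_apply, trA_apply, map_add, coeffMap_smul', coeffMap_Uf, coeffMap_qExpand, map_natCast]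

variable (R) (S : Set ℕ)

/-- Hecke polynomials acting on `q`-expansions of weight two -/
def opL : FreeAlgebra ℤ (JS S) →ₐ[ℤ] Module.End R (ℒ R) :=
  FreeAlgebra.lift ℤ fun i => haveI : NeZero i.1 := ⟨i.2.1.ne_zero⟩; trA i.1

variable {R S}

theorem opL_ι (i : JS S) : haveI : NeZero i.1 := ⟨i.2.1.ne_zero⟩;
    opL R S (FreeAlgebra.ι ℤ i) = trA i.1 := FreeAlgebra.lift_ι_apply _ _

theorem coeffMap_opL {R' : Type*} [CommRing R'] (φ : R →+* R') (P : FreeAlgebra ℤ (JS S)) :
    ∀ f : ℒ R, coeffMap φ (opL R S P f) = opL R' S P (coeffMap φ f) := by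
  induction P using FreeAlgebra.induction with
  | grade0 c =>
    intro f
    rw [AlgHom.commutes, AlgHom.commutes, eq_intCast, eq_intCast, Module.End.intCast_apply,
      Module.End.intCast_apply, map_zsmul]
  | grade1 i =>
    intro f
    haveI : NeZero i.1 := ⟨i.2.1.ne_zero⟩
    rw [opL_ι, opL_ι, coeffMap_trA]
  | mul P Q hP hQ =>
    intro f
    rw [map_mul, map_mul, Module.End.mul_apply, Module.End.mul_apply, hP, hQ]
  | add P Q hP hQ =>
    intro f
    rw [map_add, map_add, LinearMap.add_apply, LinearMap.add_apply, map_add, hP, hQ]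

end Ring

section Field

variable {k : Type*} [Field k]

/-- logarithmic derivative -/
def dl (u : ℒ k) : ℒ k := th u / u

theorem dl_mul {u v : ℒ k} (hu : u ≠ 0) (hv : v ≠ 0) : dl (u * v) = dl u + dl v := by
  rw [dl, dl, dl, th_mul]
  field_simp
  ring

theorem dl_one : dl (1 : ℒ k) = 0 := by rw [dl, th_one, zero_div]

theorem dl_prod {ι : Type*} (s : Finset ι) (f : ι → ℒ k) (hf : ∀ i ∈ s, f i ≠ 0) :
    dl (∏ i ∈ s, f i) = ∑ i ∈ s, dl (f i) := by
  classical
  induction s using Finset.induction_on with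
  | empty => rw [Finset.prod_empty, Finset.sum_empty, dl_one]
  | insert a s ha ih =>
    rw [Finset.prod_insert ha, Finset.sum_insert ha, dl_mul (hf a (Finset.mem_insert_self a s))
      (Finset.prod_ne_zero_iff.mpr fun i hi => hf i (Finset.mem_insert_of_mem hi)),
      ih fun i hi => hf i (Finset.mem_insert_of_mem hi)]

theorem dl_inv {u : ℒ k} (hu : u ≠ 0) : dl u⁻¹ = -dl u := by
  have h := dl_mul hu (inv_ne_zero hu)
  rw [mul_inv_cancel₀ hu, dl_one] at h
  exact (neg_eq_of_add_eq_zero_right h.symm).symm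

theorem dl_twist (ξ : kˣ) {u : ℒ k} : dl (twist ξ u) = twist ξ (dl u) := by
  have h : th (twist ξ u) = twist ξ (th u) := by
    ext n
    rw [th_coeff, twist_coeff, twist_coeff, th_coeff]
    ring
  rw [dl, dl, h, map_div₀]

theorem dl_qExpand (r : ℕ) [NeZero r] {u : ℒ k} :
    dl (qExpand k r u) = (r : k) • qExpand k r (dl u) := by
  have h : th (qExpand k r u) = (r : k) • qExpand k r (th u) := by
    ext n
    rw [th_coeff, HahnSeries.coeff_smul, smul_eq_mul]
    by_cases hn : (r : ℤ) ∣ n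
    · obtain ⟨m, rfl⟩ := hn
      rw [qExpand_coeff_mul, qExpand_coeff_mul, th_coeff]
      push_cast
      ring
    · rw [qExpand_coeff_of_not_dvd r _ hn, qExpand_coeff_of_not_dvd r _ hn, mul_zero, mul_zero]
  rw [dl, dl, h, map_div₀, ← HahnSeries.C_mul_eq_smul, ← HahnSeries.C_mul_eq_smul, mul_div_assoc]

theorem sum_twist (r : ℕ) [NeZero r] {ζ : kˣ} (hζ : IsPrimitiveRoot ζ r) (f : ℒ k) :
    ∑ j ∈ Finset.range r, twist (ζ ^ j) f = (r : k) • qExpand k r (Uf r f) := by
  ext n
  rw [HahnSeries.coeff_sum, HahnSeries.coeff_smul, smul_eq_mul]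
  have e : ∀ j, (twist (ζ ^ j) f).coeff n = ((ζ ^ n : kˣ) : k) ^ j * f.coeff n := by
    intro j
    rw [twist_coeff]
    congr 1
    rw [← Units.val_pow_eq_pow_val]
    congr 1
    rw [← zpow_natCast, ← zpow_natCast, ← zpow_mul, ← zpow_mul, mul_comm]
  rw [Finset.sum_congr rfl fun j _ => e j, ← Finset.sum_mul]
  by_cases hn : (r : ℤ) ∣ n
  · have h1 : (ζ ^ n : kˣ) = 1 := (hζ.zpow_eq_one_iff_dvd n).mpr hn
    rw [h1]
    obtain ⟨m, rfl⟩ := hn
    rw [qExpand_coeff_mul, Uf_coeff]
    simp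
  · rw [qExpand_coeff_of_not_dvd r _ hn, mul_zero]
    have h1 : ((ζ ^ n : kˣ) : k) ≠ 1 := by
      intro h
      exact hn ((hζ.zpow_eq_one_iff_dvd n).mp (Units.ext h))
    have h2 : ((ζ ^ n : kˣ) : k) ^ r = 1 := by
      rw [← Units.val_pow_eq_pow_val, ← zpow_natCast, ← zpow_mul, mul_comm, zpow_mul,
        zpow_natCast, hζ.pow_eq_one, one_zpow, Units.val_one]
    have h3 := mul_neg_geom_sum ((ζ ^ n : kˣ) : k) r
    rw [h2, sub_self] at h3
    have h4 := (mul_eq_zero.mp h3).resolve_left (sub_ne_zero.mpr (Ne.symm h1))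
    rw [h4, zero_mul]

theorem dl_hM (r : ℕ) [NeZero r] [hp : HasPrim k r] (hr : (r : k) ≠ 0) {u : ℒ k} (hu : u ≠ 0) :
    dl (hM r u) = trA r (dl u) := by
  obtain ⟨ζ, hζ⟩ := hp.ex
  have hW0 : hW r u ≠ 0 := hW_ne_zero r hu
  have h1 : dl (hW r u) = Uf r (dl u) := by
    have h2 := congrArg dl (qExpand_hW r u)
    rw [dl_qExpand, prodTwist_eq_range r hζ, dl_prod _ _ (fun j _ => HeckeQ.twist_ne_zero _ hu),
      Finset.sum_congr rfl fun j _ => dl_twist (ζ ^ j), sum_twist r hζ] at h2
    exact qExpand_inj r (smul_right_injective _ hr h2)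
  rw [hM, dl_mul ((map_ne_zero _).mpr hu) hW0, dl_qExpand, h1, trA_apply]

variable {S : Set ℕ}

/-- **Hecke operators and logarithmic derivatives** -/
theorem dl_op (hk : ∀ i : JS S, haveI : NeZero i.1 := ⟨i.2.1.ne_zero⟩; HasPrim k i.1)
    (hk0 : ∀ i : JS S, (i.1 : k) ≠ 0) (P : FreeAlgebra ℤ (JS S)) :
    ∀ u : (ℒ k)ˣ, dl (op hk P u : ℒ k) = opL k S P (dl (u : ℒ k)) := by
  induction P using FreeAlgebra.induction with
  | grade0 c =>
    intro u
    have h1 : op hk (algebraMap ℤ _ c) u = u ^ c := by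
      rw [op, AlgHom.commutes, eq_intCast, AddMonoid.End.intCast_apply]
      rfl
    rw [h1, AlgHom.commutes, eq_intCast, Module.End.intCast_apply]
    have h2 : ∀ n : ℕ, dl ((u ^ n : (ℒ k)ˣ) : ℒ k) = (n : ℤ) • dl (u : ℒ k) := by
      intro n
      induction n with
      | zero => rw [pow_zero, Units.val_one, dl_one]; simp
      | succ n ih =>
        rw [pow_succ, Units.val_mul, dl_mul (Units.ne_zero _) (Units.ne_zero _), ih]
        push_cast
        rw [add_smul, one_smul]
    obtain ⟨n, rfl | rfl⟩ := c.eq_nat_or_neg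
    · rw [zpow_natCast, h2]
    · rw [zpow_neg, zpow_natCast, Units.val_inv_eq_inv_val, dl_inv (Units.ne_zero _), h2, neg_smul]
  | grade1 i =>
    intro u
    haveI : NeZero i.1 := ⟨i.2.1.ne_zero⟩
    haveI := hk i
    rw [op_ι hk, opL_ι, dl_hM i.1 (hk0 i) u.ne_zero]
  | mul P Q hP hQ =>
    intro u
    have h1 : op hk (P * Q) u = op hk P (op hk Q u) := by
      rw [op, map_mul]; rfl
    rw [h1, hP, hQ, map_mul, Module.End.mul_apply]
  | add P Q hP hQ =>
    intro u
    have h1 : op hk (P + Q) u = op hk P u * op hk Q u := by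
      rw [op, map_add]; rfl
    rw [h1, Units.val_mul, dl_mul (Units.ne_zero _) (Units.ne_zero _), hP, hQ, map_add,
      LinearMap.add_apply]

end Field

end Fermat.Agent.PicZ
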