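import Fermat.Agent.AnJac.Descent
import Fermat.Agent.Carayol.Theta
import Fermat.Agent.PicZ.Canon
import Fermat.Agent.Newform.Forms

/-!
# Cusp forms of weight two as differentials: the divisor
-/

set_option autoImplicit false
set_option linter.unusedSectionVars false

open UpperHalfPlane ModularForm MatrixGroups Matrix.SpecialLinearGroup Filter Function
open scoped Manifold Topology Real ComplexConjugate Derivative

noncomputable section

namespace Fermat.Agent.PicZ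

open Fermat.Agent.DimS2 Fermat.Agent.ModFun CongruenceSubgroup Fermat.Agent.GenusX0 AlgebraicCurve
open ModularCurve Fermat.Agent.AnJac Fermat.Agent.Carayol
open Fermat.Agent.Curves hiding ord_pow

local notation "𝕢" => Function.Periodic.qParam

variable {N : ℕ} [NeZero N] (f : CuspForm (Gamma0 N) 2)

/-- the `q`-expansion as a Laurent series -/
def qs : LaurentSeries ℂ := HahnSeries.ofPowerSeries ℤ ℂ (qExpansion 1 f)

theorem hasSum_cf (z : ℍ) :
    HasSum (fun n : ℕ => PowerSeries.coeff n (qExpansion 1 f) * 𝕢 1 z ^ n) (f z) := by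
  have h1 := CongruenceSubgroup.one_mem_strictPeriods_Gamma0 N
  have : Fact (IsCusp OnePoint.infty ((CongruenceSubgroup.Gamma0 N :
      Subgroup (GL (Fin 2) ℝ)))) := ⟨Subgroup.isCusp_of_mem_strictPeriods one_pos h1⟩
  exact hasSum_qExpansion one_pos
    (SlashInvariantFormClass.periodic_comp_ofComplex f h1)
    (ModularFormClass.holo f) (ModularFormClass.bdd_at_infty f) z

theorem pconv_qs : PConv (qExpansion 1 f) := by
  apply pconv_of_tau
  intro τ
  exact (hasSum_cf f τ).summable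

theorem qs_mem : qs f ∈ convLaurent := (pconv_qs f).mem_convLaurent

theorem ef_qs : ef (qs f) = f := by
  funext τ
  rw [ef, qs, evf_ofPowerSeries]
  exact (hasSum_cf f τ).tsum_eq

theorem cf_mdiff : MDiff (f : ℍ → ℂ) := f.holo'

theorem cf_smul {γ : SL(2,ℤ)} (hγ : γ ∈ Gamma0 N) (τ : ℍ) : f (γ • τ) = denom γ τ ^ 2 * f τ := by
  have h := congrFun (f.slash_action_eq' _ ⟨γ, hγ, rfl⟩) τ
  change ((f : ℍ → ℂ) ∣[(2 : ℤ)] γ) τ = f τ at h
  rw [SL_slash_apply] at h
  rw [← h]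
  have e : (denom γ τ) ^ (-2 : ℤ) = ((denom γ τ) ^ 2)⁻¹ := by
    rw [zpow_neg]; rfl
  rw [e, mul_comm (f (γ • τ)), ← mul_assoc, mul_inv_cancel₀, one_mul]
  exact pow_ne_zero _ (denom_ne_zero _ _)

theorem slash_eq (g : SL(2,ℤ)) (τ : ℍ) :
    f (g • τ) = denom g τ ^ 2 * ((f : ℍ → ℂ) ∣[(2 : ℤ)] g) τ := by
  rw [SL_slash_apply]
  have e : (denom g τ) ^ (-2 : ℤ) = ((denom g τ) ^ 2)⁻¹ := by
    rw [zpow_neg]; rfl
  rw [e, mul_comm (f (g • τ)), ← mul_assoc, mul_inv_cancel₀, one_mul]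
  exact pow_ne_zero _ (denom_ne_zero _ _)

theorem slash_zero (g : SL(2,ℤ)) : IsZeroAtImInfty ((f : ℍ → ℂ) ∣[(2 : ℤ)] g) := by
  have := (ofInv_mem_VS f).2 (QuotientGroup.mk g⁻¹)
  rw [ofInv_mk, inv_inv] at this
  exact this

theorem disc_smul (g : SL(2,ℤ)) (τ : ℍ) :
    discriminant (g • τ) = denom g τ ^ 12 * discriminant τ := by
  have := disc_isL1.apply_smul g τ
  exact_mod_cast this

theorem mdiff_disc_inv : MDiff (fun τ => (discriminant τ)⁻¹) := by
  have : (fun τ => (discriminant τ)⁻¹) = ef (DeltaInvSer ℂ) := by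
    funext τ; exact (evf_DeltaInvSer τ).symm
  rw [this]
  exact ef_mdiff DeltaInvSer_mem

theorem mg_disc_inv : MG (fun τ => (discriminant τ)⁻¹) := by
  have : (fun τ => (discriminant τ)⁻¹) = ef (DeltaInvSer ℂ) := by
    funext τ; exact (evf_DeltaInvSer τ).symm
  rw [this]
  exact ef_mg DeltaInvSer_mem

/-- `f⁶ / Δ` -/
def G6 : ℍ → ℂ := (f : ℍ → ℂ) ^ 6 * fun τ => (discriminant τ)⁻¹

theorem G6_smul (g : SL(2,ℤ)) (τ : ℍ) :
    G6 f (g • τ) = ((f : ℍ → ℂ) ∣[(2 : ℤ)] g) τ ^ 6 * (discriminant τ)⁻¹ := by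
  simp only [G6, Pi.mul_apply, Pi.pow_apply]
  rw [slash_eq, disc_smul]
  have h1 : (denom g τ : ℂ) ≠ 0 := denom_ne_zero _ _
  have h2 := discriminant_ne_zero τ
  field_simp

theorem isX_G6 : IsX N 1 (G6 f) := by
  refine IsX.of isNH_one ((mdiff_pow (cf_mdiff f) 6).mul mdiff_disc_inv) (fun γ τ => ?_)
    (fun δ => ?_)
  · rw [G6_smul, MonoidHom.one_apply, Units.val_one, one_mul]
    have h : (f : ℍ → ℂ) ∣[(2 : ℤ)] (γ : SL(2,ℤ)) = f := f.slash_action_eq' _ ⟨γ, γ.2, rfl⟩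
    rw [h]
    rfl
  · have h1 : MG ((f : ℍ → ℂ) ∣[(2 : ℤ)] δ) := MG.of_bdd (slash_zero f δ).boundedAtFilter
    have h2 : MG (((f : ℍ → ℂ) ∣[(2 : ℤ)] δ) ^ 6) := by
      have e : ((f : ℍ → ℂ) ∣[(2 : ℤ)] δ) ^ 6 = ((f : ℍ → ℂ) ∣[(2 : ℤ)] δ) *
        (((f : ℍ → ℂ) ∣[(2 : ℤ)] δ) * (((f : ℍ → ℂ) ∣[(2 : ℤ)] δ) * (((f : ℍ → ℂ) ∣[(2 : ℤ)] δ) *
        (((f : ℍ → ℂ) ∣[(2 : ℤ)] δ) * ((f : ℍ → ℂ) ∣[(2 : ℤ)] δ))))) := by
        funext τ; simp only [Pi.mul_apply, Pi.pow_apply]; ring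
      rw [e]
      exact h1.mul (h1.mul (h1.mul (h1.mul (h1.mul h1))))
    exact (h2.mul mg_disc_inv).congr fun τ => (G6_smul f δ τ).symm

/-- `f E₄ E₆ / Δ` -/
def G0f : ℍ → ℂ := (f : ℍ → ℂ) * (e4 * (e6 * fun τ => (discriminant τ)⁻¹))

theorem G0_smul (g : SL(2,ℤ)) (τ : ℍ) :
    G0f f (g • τ) = ((f : ℍ → ℂ) ∣[(2 : ℤ)] g) τ * (e4 τ * (e6 τ * (discriminant τ)⁻¹)) := by
  simp only [G0f, Pi.mul_apply]
  rw [slash_eq, disc_smul]
  have h4 : e4 (g • τ) = denom g τ ^ 4 * e4 τ := by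
    have := e4_isL1.apply_smul g τ
    exact_mod_cast this
  have h6 : e6 (g • τ) = denom g τ ^ 6 * e6 τ := by
    have := e6_isL1.apply_smul g τ
    exact_mod_cast this
  rw [h4, h6]
  have h1 : (denom g τ : ℂ) ≠ 0 := denom_ne_zero _ _
  have h2 := discriminant_ne_zero τ
  field_simp

theorem isX_G0 : IsX N 1 (G0f f) := by
  refine IsX.of isNH_one ((cf_mdiff f).mul (e4_isL1.holo.mul (e6_isL1.holo.mul mdiff_disc_inv)))
    (fun γ τ => ?_) (fun δ => ?_)
  · rw [G0_smul, MonoidHom.one_apply, Units.val_one, one_mul]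
    have h : (f : ℍ → ℂ) ∣[(2 : ℤ)] (γ : SL(2,ℤ)) = f := f.slash_action_eq' _ ⟨γ, γ.2, rfl⟩
    rw [h]
    rfl
  · have h1 : MG ((f : ℍ → ℂ) ∣[(2 : ℤ)] δ) := MG.of_bdd (slash_zero f δ).boundedAtFilter
    exact (h1.mul ((MG.of_bdd e4_isL1.bdd).mul ((MG.of_bdd e6_isL1.bdd).mul mg_disc_inv))).congr
      fun τ => (G0_smul f δ τ).symm


/-! ### the function `f / θj` -/

theorem exists_G0_mul : ∃ c : ℂ, c ≠ 0 ∧ lser (G0f f) * thetaFun (jqModC ℂ) =
    HahnSeries.C c * (qs f * (jqModC ℂ * (jqModC ℂ - 1728))) := by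
  obtain ⟨c, hc0, hc⟩ := GenusX0.exists_const
  refine ⟨c, hc0, ?_⟩
  have hm := (isX_G0 f).isP isNH_one
  have hJ : jqModC ℂ ∈ convLaurent := jqModC_mem_convLaurent
  have h1728 : (1728 : LaurentSeries ℂ) ∈ convLaurent := by
    have := C_mem (1728 : ℂ)
    rwa [map_ofNat] at this
  have hR : jqModC ℂ * (jqModC ℂ - 1728) ∈ convLaurent :=
    convLaurent.mul_mem hJ (convLaurent.sub_mem hJ h1728)
  refine ef_inj (convLaurent.mul_mem hm.lser_mem theta_j_mem)
    (convLaurent.mul_mem (C_mem c) (convLaurent.mul_mem (qs_mem f) hR)) ?_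
  rw [ef_mul hm.lser_mem theta_j_mem, hm.ef_lser, ef_mul (C_mem c)
    (convLaurent.mul_mem (qs_mem f) hR), ef_mul (qs_mem f) hR, ef_qs, ef_C,
    ef_mul hJ (convLaurent.sub_mem hJ h1728), ef_sub hJ h1728]
  have e1728 : ef (1728 : LaurentSeries ℂ) = fun _ => (1728 : ℂ) := by
    have := ef_C (1728 : ℂ)
    rwa [map_ofNat] at this
  rw [e1728]
  funext τ
  simp only [Pi.mul_apply, Pi.sub_apply, G0f]
  have hj : ef (jqModC ℂ) τ = jfun τ := evf_jqModC τ
  have ht : ef (thetaFun (jqModC ℂ)) τ = D jfun τ := evf_theta_j τ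
  rw [hj, ht]
  have h1 := hc τ
  have h2 := jfun_mul_disc τ
  have h3 := jfun_sub_mul_disc τ
  have h4 := discriminant_ne_zero τ
  field_simp
  apply mul_left_cancel₀ h4
  linear_combination (e4 τ * e6 τ * f τ) * h1 - c * f τ * (jfun τ - 1728) * discriminant τ * h2
    - c * f τ * e4 τ ^ 3 * h3

theorem theta_jC_ne : thetaFun (jqModC ℂ) ≠ 0 := by
  intro h
  have h1 := congrArg (fun x => HahnSeries.coeff x (-1)) h
  simp only [thetaFun_coeff, HahnSeries.coeff_zero, coeff_jqModC_neg_one] at h1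
  norm_num at h1

theorem div_mem_FF : qs f / thetaFun (jqModC ℂ) ∈ FF N := by
  obtain ⟨c, hc0, hc⟩ := exists_G0_mul f
  rw [mem_FF]
  refine ⟨G0f f, isX_G0 f, Polynomial.C c * (Polynomial.X * (Polynomial.X - 1728)), ?_, ?_⟩
  · refine mul_ne_zero (by simpa using hc0) (mul_ne_zero Polynomial.X_ne_zero ?_)
    have := Polynomial.X_sub_C_ne_zero (1728 : ℂ)
    rwa [map_ofNat] at this
  · have e : jev ℂ (Polynomial.C c * (Polynomial.X * (Polynomial.X - 1728))) =
        HahnSeries.C c * (jqModC ℂ * (jqModC ℂ - 1728)) := by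
      simp [jev]
    rw [e, div_mul_eq_mul_div, div_eq_iff theta_jC_ne, hc]
    ring


theorem lser_G6 : lser (G6 f) = (qs f / thetaFun (jqModC ℂ)) ^ 6 *
    (jqModC ℂ ^ 4 * (jqModC ℂ - 1728) ^ 3) := by
  have h1 : lser (G6 f) = qs f ^ 6 * DeltaInvSer ℂ := by
    refine ef_inj ((isX_G6 f).isP isNH_one).lser_mem
      (convLaurent.mul_mem (convLaurent.pow_mem (qs_mem f) 6) DeltaInvSer_mem) ?_
    rw [((isX_G6 f).isP isNH_one).ef_lser, ef_mul (convLaurent.pow_mem (qs_mem f) 6)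
      DeltaInvSer_mem, ef_pow (qs_mem f), ef_qs]
    funext τ
    simp only [G6, Pi.mul_apply]
    congr 1
    exact (evf_DeltaInvSer τ).symm
  rw [h1, div_pow, theta_j_C]
  have h2 := DeltaSer_mul_inv ℂ
  have h3 : DeltaSer ℂ ≠ 0 := left_ne_zero_of_mul_eq_one h2
  have h4 : thetaFun (jqModC ℂ) ^ 6 ≠ 0 := pow_ne_zero _ theta_jC_ne
  rw [theta_j_C] at h4
  have h5 : jqModC ℂ ^ 4 * (jqModC ℂ - 1728) ^ 3 ≠ 0 := left_ne_zero_of_mul h4
  rw [div_mul_eq_mul_div, eq_div_iff h4]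
  linear_combination (qs f ^ 6 * (jqModC ℂ ^ 4 * (jqModC ℂ - 1728) ^ 3)) * h2

/-! ### orders -/

section Ord

variable {k : Type*} [Field k] [IsAlgClosed k] [CharZero k] (ι : k →+* ℂ)

local notation "FN" => modularFunctionFieldFullC k N

variable {f}

/-- the element of the function field attached to a cusp form with coefficients in `k` -/
theorem exists_h {x : LaurentSeries k} (hx : coeffMap ι x = qs f) :
    ∃ h : FN, (h : LaurentSeries k) * thetaFun (jqModC k) = x := by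
  let _ := ι.toAlgebra
  have hι : algebraMap k ℂ = ι := rfl
  have h0 : thetaFun (jqModC k) ≠ 0 := by
    intro h
    have h1 := congrArg (fun x => HahnSeries.coeff x (-1)) h
    simp only [thetaFun_coeff, HahnSeries.coeff_zero, coeff_jqModC_neg_one] at h1
    norm_num at h1
  have hm : x / thetaFun (jqModC k) ∈ modularFunctionFieldFullC k N := by
    apply mem_of_coeffs
    rw [hι, map_div₀, coeffMap_thetaFun, coeffMap_jqModC, hx]
    exact div_mem_FF f
  exact ⟨⟨_, hm⟩, div_mul_cancel₀ _ h0⟩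

theorem coeffMap_h {x : LaurentSeries k} (hx : coeffMap ι x = qs f) {h : FN}
    (hh : (h : LaurentSeries k) * thetaFun (jqModC k) = x) :
    coeffMap ι (h : LaurentSeries k) = qs f / thetaFun (jqModC ℂ) := by
  rw [eq_div_iff theta_jC_ne, ← hx, ← hh, map_mul, coeffMap_thetaFun, coeffMap_jqModC]

/-- the element attached to `f⁶/Δ` -/
def g6 (h : FN) : FN := h ^ 6 * (je k N ^ 4 * (je k N - algebraMap k FN 1728) ^ 3)

theorem hasOrd_g6 {x : LaurentSeries k} (hx : coeffMap ι x = qs f) {h : FN}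
    (hh : (h : LaurentSeries k) * thetaFun (jqModC k) = x) (hg : g6 h ≠ 0) (U : UDN N)
    (g : SL(2,ℤ)) :
    (Spot.ud U.toUD).HasOrd (fun τ => G6 f (g • τ)) (sigma ι U g (g6 h)).order := by
  have h1 := hasOrd_of_repr ι U g hg ((isX_G6 f).isP isNH_one) (isP_const 1) (by
    rw [lser_const, map_one, mul_one, lser_G6]
    have e : ((g6 h : FN) : LaurentSeries k) = (h : LaurentSeries k) ^ 6 *
        (jqModC k ^ 4 * (jqModC k - 1728) ^ 3) := by
      have e1 : ((algebraMap k FN 1728 : FN) : LaurentSeries k) = 1728 := by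
        rw [map_ofNat]; rfl
      have e2 : ((g6 h : FN) : LaurentSeries k) = (h : LaurentSeries k) ^ 6 *
        (jqModC k ^ 4 * (jqModC k - ((algebraMap k FN 1728 : FN) : LaurentSeries k)) ^ 3) := rfl
      rw [e2, e1]
    rw [e, map_mul, map_pow, map_mul, map_pow, map_pow, map_sub, coeffMap_jqModC, map_ofNat,
      coeffMap_h ι hx hh]) (t := 0) (Spot.hasOrd_const one_ne_zero)
  rwa [add_zero] at h1

theorem g6_ne {h : FN} (hh0 : h ≠ 0) : g6 h ≠ 0 := by
  have hj0 : je k N ≠ 0 := fun h => transcendental_je (k := k) (N := N) (h ▸ isAlgebraic_zero)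
  have h1 : je k N - algebraMap k FN 1728 ≠ 0 := by
    intro h0
    apply transcendental_je_sub (k := k) (N := N) 1728
    rw [h0]
    exact isAlgebraic_zero
  exact mul_ne_zero (pow_ne_zero _ hh0) (mul_ne_zero (pow_ne_zero _ hj0) (pow_ne_zero _ h1))

theorem ord_g6 {h : FN} (hh0 : h ≠ 0) (v : Place k FN) : v.ord (g6 h) = 6 * v.ord h +
    (4 * v.ord (je k N) + 3 * v.ord (je k N - algebraMap k FN 1728)) := by
  have hj0 : je k N ≠ 0 := fun h => transcendental_je (k := k) (N := N) (h ▸ isAlgebraic_zero)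
  have h1 : je k N - algebraMap k FN 1728 ≠ 0 := by
    intro h0
    apply transcendental_je_sub (k := k) (N := N) 1728
    rw [h0]
    exact isAlgebraic_zero
  rw [g6, v.ord_mul (pow_ne_zero _ hh0) (mul_ne_zero (pow_ne_zero _ hj0) (pow_ne_zero _ h1)),
    v.ord_mul (pow_ne_zero _ hj0) (pow_ne_zero _ h1), Curves.ord_pow, Curves.ord_pow,
    Curves.ord_pow]
  push_cast
  ring

theorem order_pt {x : LaurentSeries k} (hx : coeffMap ι x = qs f) {h : FN}
    (hh : (h : LaurentSeries k) * thetaFun (jqModC k) = x) (hh0 : h ≠ 0) (P : PtData)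
    (g : SL(2,ℤ)) : 0 ≤ (sigma ι (P.toUDN N) g (g6 h)).order := by
  have h1 := hasOrd_g6 ι hx hh (g6_ne hh0) (P.toUDN N) g
  have hm : MDiff (fun τ => G6 f (g • τ)) := mdiff_comp_smul (isX_G6 f).isA.mdiff g
  have hne : (fun τ => G6 f (g • τ)) ≠ 0 := by
    intro h0
    have h2 : G6 f = 0 := by
      funext τ
      have := congrFun h0 (g⁻¹ • τ)
      simpa using this
    have h3 : lser (G6 f) = 0 := (lser_eq_zero_iff ((isX_G6 f).isP isNH_one)).mpr h2
    rw [lser_G6, ← coeffMap_h ι hx hh] at h3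
    rcases mul_eq_zero.mp h3 with h4 | h4
    · have h5 := pow_eq_zero_iff (by norm_num) |>.mp h4
      rw [map_eq_zero_iff _ (AnJac.coeffMap_injective ι)] at h5
      exact hh0 (Subtype.ext h5)
    · have h5 : thetaFun (jqModC ℂ) ^ 6 = 0 := by rw [theta_j_C, h4, zero_mul]
      exact theta_jC_ne (pow_eq_zero_iff (by norm_num) |>.mp h5)
  have h2 := Spot.hasOrd_ud_pt P hm hne
  rw [h1.unique h2]
  exact Int.natCast_nonneg _

theorem order_cusp {x : LaurentSeries k} (hx : coeffMap ι x = qs f) {h : FN}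
    (hh : (h : LaurentSeries k) * thetaFun (jqModC k) = x) (hh0 : h ≠ 0)
    (g : SL(2,ℤ)) : -(N : ℤ) < (sigma ι (cuspUDN N) g (g6 h)).order := by
  have h1 := hasOrd_g6 ι hx hh (g6_ne hh0) (cuspUDN N) g
  set s := (sigma ι (cuspUDN N) g (g6 h)).order with hs
  have hN := Nat.pos_of_ne_zero (NeZero.ne N)
  have h2 : (Spot.ud (cuspUDN N).toUD).HasOrd discriminant N := by
    obtain ⟨c, hc, h⟩ := disc_hasOrd N hN
    exact ⟨c, hc, h.mono_left (comap_qParam_le N)⟩
  have h3 := h1.mul h2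
  have h4 : ((fun τ => G6 f (g • τ)) * discriminant) = ((f : ℍ → ℂ) ∣[(2 : ℤ)] g) ^ 6 := by
    funext τ
    rw [Pi.mul_apply, G6_smul, Pi.pow_apply, mul_assoc,
      inv_mul_cancel₀ (discriminant_ne_zero τ), mul_one]
  rw [h4] at h3
  have h5 : Tendsto (((f : ℍ → ℂ) ∣[(2 : ℤ)] g) ^ 6) (Spot.ud (cuspUDN N).toUD).ℓ (𝓝 0) := by
    have h6 : Tendsto ((f : ℍ → ℂ) ∣[(2 : ℤ)] g) atImInfty (𝓝 0) := slash_zero f g
    have h7 := (h6.mono_left (comap_qParam_le N)).pow 6
    rw [zero_pow (by norm_num)] at h7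
    exact h7
  have h6 : Tendsto (fun τ => (((f : ℍ → ℂ) ∣[(2 : ℤ)] g) ^ 6) τ /
      (Spot.ud (cuspUDN N).toUD).u τ ^ (0 : ℤ)) (Spot.ud (cuspUDN N).toUD).ℓ (𝓝 0) := by
    refine h5.congr fun τ => ?_
    rw [zpow_zero, div_one]
  by_contra hcon
  push Not at hcon
  rcases lt_or_eq_of_le (show s + N ≤ 0 by omega) with h7 | h7
  · exact Spot.not_hasOrd_of_tendsto h3 h6 h7
  · rw [h7] at h3
    obtain ⟨c, hc, h8⟩ := h3
    have := (Spot.ud (cuspUDN N).toUD).ne
    exact hc (tendsto_nhds_unique h8 h6)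

/-- **cusp forms give regular differentials** -/
theorem le_ord_h {K : Divisor k FN} (hK : IsCan K) {x : LaurentSeries k}
    (hx : coeffMap ι x = qs f) {h : FN}
    (hh : (h : LaurentSeries k) * thetaFun (jqModC k) = x) (hh0 : h ≠ 0) (v : Place k FN) :
    -K v ≤ v.ord h := by
  have hj0 : je k N ≠ 0 := fun h => transcendental_je (k := k) (N := N) (h ▸ isAlgebraic_zero)
  have hg := ord_g6 hh0 v
  rcases place_cases v with h3 | ⟨c, hc⟩
  · obtain ⟨y, hy⟩ := exists_ctr_eq (isLoc_cusp (k := k) (N := N) ι) (v := v)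
      (by rw [v.ord_inv]; omega)
    obtain ⟨ε, hε, hord⟩ := ctr_spec (isLoc_cusp (k := k) (N := N) ι) y
    rw [hy] at hord
    obtain ⟨g, rfl⟩ := QuotientGroup.mk_surjective y
    have h1 := order_cusp ι hx hh hh0 g⁻¹
    rw [← sig_mk, hord _ (g6_ne hh0)] at h1
    have he : (N : ℤ) = ε * v.ord (je k N)⁻¹ := by
      obtain ⟨ξ, h1, h2⟩ := (isLoc_cusp (k := k) (N := N) ι).fib
      have h3 := hord _ (inv_ne_zero hj0)
      rw [h1, h2] at h3
      exact h3
    rw [v.ord_inv] at he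
    have hεpos : (0 : ℤ) < ε := by exact_mod_cast hε
    have h4 : v.ord (je k N - algebraMap k FN 1728) = v.ord (je k N) := by
      have := (Curves.ord_add_eq_left v hj0 (g := -algebraMap k FN 1728) (by
        right
        rw [Curves.ord_neg, ord_algebraMap]
        exact h3)).2
      rwa [← sub_eq_add_neg] at this
    rw [h4] at hg
    rw [hK.neg v h3]
    have h5 : 0 < ε * (v.ord (g6 h) - v.ord (je k N)) := by nlinarith
    have h6 : 0 < v.ord (g6 h) - v.ord (je k N) := (mul_pos_iff_of_pos_left hεpos).mp h5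
    omega
  · obtain ⟨Pt, _, _, hL⟩ := exists_isLoc (N := N) ι c
    obtain ⟨y, hy⟩ := exists_ctr_eq hL hc
    obtain ⟨ε, hε, hord⟩ := ctr_spec hL y
    rw [hy] at hord
    obtain ⟨g, rfl⟩ := QuotientGroup.mk_surjective y
    have h1 := order_pt ι hx hh hh0 Pt g⁻¹
    rw [← sig_mk, hord _ (g6_ne hh0)] at h1
    have hεpos : (0 : ℤ) < ε := by exact_mod_cast hε
    have h2 : 0 ≤ v.ord (g6 h) := by
      by_contra hcon
      push Not at hcon
      nlinarith
    rw [hK.pos v c hc]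
    have hord_ne : ∀ c' : k, c' ≠ c → v.ord (je k N - algebraMap k FN c') = 0 := by
      intro c' hcc
      have hne : algebraMap k FN (c - c') ≠ 0 := by
        rw [Ne, map_eq_zero_iff _ (algebraMap k FN).injective]
        exact sub_ne_zero.mpr (Ne.symm hcc)
      have h4 := (Curves.ord_add_eq_left v hne (g := je k N - algebraMap k FN c) (by
        right
        rw [ord_algebraMap]
        exact hc)).2
      rw [ord_algebraMap] at h4
      rw [← h4]
      congr 1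
      rw [map_sub]
      ring
    have hj : v.ord (je k N - algebraMap k FN 0) = v.ord (je k N) := by rw [map_zero, sub_zero]
    by_cases h0 : c = 0
    · subst h0
      rw [hord_ne 1728 (by norm_num), ← hj] at hg
      have h5 := ord_je_le_three v ι
      rw [← hj] at h5
      omega
    · have hj' := hord_ne 0 (Ne.symm h0)
      rw [hj] at hj'
      by_cases h1' : c = 1728
      · subst h1'
        have h5 := ord_je_sub_le_two v ι
        omega
      · have h5 := ord_je_sub_le_one v ι h0 h1'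
        rw [hord_ne 1728 (Ne.symm h1')] at hg
        omega

end Ord

end Fermat.Agent.PicZ
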