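import Fermat.Agent.PicZ.Dlog
import Fermat.Agent.GoodRed.Inst

/-!
# The kernel of the derivation `q d/dq` in characteristic `p` consists of `p`-th powers
-/

set_option autoImplicit false
set_option linter.unusedSectionVars false

noncomputable section

namespace Fermat.Agent.PicZ

open IntermediateField

local notation "ℒ" => LaurentSeries

section Abs

variable {E : Type*} [Field E] {p : ℕ} [hp : Fact p.Prime] [CharP E p]

theorem natCast_pow_p (n : ℕ) : (n : E) ^ p = n := by
  have h := map_natCast (frobenius E p) n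
  rwa [frobenius_def] at h

omit hp [CharP E p] in
theorem hpow_aux {D : E →+ E} (hD : ∀ x y, D (x * y) = x * D y + y * D x) (x : E) (n : ℕ) :
    D (x ^ n) = n * x ^ (n - 1) * D x := by
  induction n with
  | zero =>
    have h := hD 1 1
    rw [one_mul, one_mul] at h
    have : D (1 : E) = 0 := by
      have h2 : D (1 : E) + 0 = D 1 + D 1 := by rw [add_zero]; exact h
      exact (add_left_cancel h2).symm
    rw [pow_zero, this]; simp
  | succ n ih =>
    rw [pow_succ, hD, ih]
    rcases n with _ | n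
    · simp
    · simp only [Nat.add_sub_cancel]
      push_cast
      ring

/-- independence of `1, t, …, t^{p-1}` over the `p`-th powers -/
theorem eq_zero_of_sum {D : E →+ E} (hD : ∀ x y, D (x * y) = x * D y + y * D x) {t : E}
    (ht : D t = 1) (k : ℕ) (hk : k ≤ p) : ∀ (y : ℕ → E),
    ∑ m ∈ Finset.range k, y m ^ p * t ^ m = 0 → ∀ m < k, y m = 0 := by
  have hpow := hpow_aux hD
  have hpp : ∀ x : E, D (x ^ p) = 0 := by
    intro x
    rw [hpow, CharP.cast_eq_zero, zero_mul, zero_mul]
  induction k with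
  | zero => intro y _ m hm; omega
  | succ k ih =>
    intro y hy
    have h1 : ∑ m ∈ Finset.range k, (((m + 1 : ℕ) : E) * y (m + 1)) ^ p * t ^ m = 0 := by
      have h2 := congrArg D hy
      rw [map_zero, map_sum, Finset.sum_range_succ'] at h2
      rw [pow_zero, mul_one, hpp, add_zero] at h2
      rw [← h2]
      refine Finset.sum_congr rfl fun m _ => ?_
      rw [hD, hpp, mul_zero, add_zero, hpow, ht, mul_one, mul_pow]
      have h3 := natCast_pow_p (E := E) (p := p) (m + 1)
      rw [h3, Nat.add_sub_cancel]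
      ring
    have h2 := ih (by omega) _ h1
    have h3 : ∀ m < k, y (m + 1) = 0 := by
      intro m hm
      have h4 := h2 m hm
      rcases mul_eq_zero.mp h4 with h5 | h5
      · exfalso
        rw [CharP.cast_eq_zero_iff E p] at h5
        have := Nat.le_of_dvd (by omega) h5
        omega
      · exact h5
    intro m hm
    rcases m with _ | m
    · rw [Finset.sum_range_succ'] at hy
      rw [Finset.sum_eq_zero (fun m hm => by
        rw [h3 m (Finset.mem_range.mp hm), zero_pow hp.out.ne_zero, zero_mul]), zero_add,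
        pow_zero, mul_one] at hy
      exact pow_eq_zero_iff hp.out.ne_zero |>.mp hy
    · exact h3 m (by omega)

/-- the kernel of the derivation -/
theorem eq_pow_of_sum {D : E →+ E} (hD : ∀ x y, D (x * y) = x * D y + y * D x) {t : E}
    (ht : D t = 1) (y : ℕ → E)
    (hy : D (∑ m ∈ Finset.range p, y m ^ p * t ^ m) = 0) :
    ∑ m ∈ Finset.range p, y m ^ p * t ^ m = y 0 ^ p := by
  obtain ⟨q, hq⟩ : ∃ q, p = q + 1 := ⟨p - 1, by have := hp.out.pos; omega⟩
  have hpow := hpow_aux hD
  have hpp : ∀ x : E, D (x ^ p) = 0 := by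
    intro x
    rw [hpow, CharP.cast_eq_zero, zero_mul, zero_mul]
  have h1 : ∑ m ∈ Finset.range q, (((m + 1 : ℕ) : E) * y (m + 1)) ^ p * t ^ m = 0 := by
    have h2 := hy
    rw [map_sum] at h2
    have e : ∑ m ∈ Finset.range p, D (y m ^ p * t ^ m) =
        ∑ m ∈ Finset.range (q + 1), D (y m ^ p * t ^ m) := by rw [← hq]
    rw [e, Finset.sum_range_succ'] at h2
    rw [pow_zero, mul_one, hpp, add_zero] at h2
    rw [← h2]
    refine Finset.sum_congr rfl fun m _ => ?_
    rw [hD, hpp, mul_zero, add_zero, hpow, ht, mul_one, mul_pow]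
    have h3 := natCast_pow_p (E := E) (p := p) (m + 1)
    rw [h3, Nat.add_sub_cancel]
    ring
  have h2 := eq_zero_of_sum hD ht q (by omega) _ h1
  have e : ∑ m ∈ Finset.range p, y m ^ p * t ^ m =
      ∑ m ∈ Finset.range (q + 1), y m ^ p * t ^ m := by rw [← hq]
  rw [e, Finset.sum_range_succ', Finset.sum_eq_zero, zero_add, pow_zero, mul_one]
  intro m hm
  have h4 := h2 m (Finset.mem_range.mp hm)
  rcases mul_eq_zero.mp h4 with h5 | h5
  · exfalso
    rw [CharP.cast_eq_zero_iff E p] at h5
    have := Nat.le_of_dvd (by omega) h5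
    have := Finset.mem_range.mp hm
    omega
  · rw [h5, zero_pow hp.out.ne_zero, zero_mul]

variable {κ : Type*} [Field κ] [CharP κ p] [IsAlgClosed κ] [Algebra κ E]

/-- the decomposition over the `p`-th powers -/
theorem exists_sum_pow {t : E} [Algebra.IsSeparable κ⟮t⟯ E] (x : E) :
    ∃ y : ℕ → E, x = ∑ m ∈ Finset.range p, y m ^ p * t ^ m := by
  obtain ⟨q, hq⟩ : ∃ q, p = q + 1 := ⟨p - 1, by have := hp.out.pos; omega⟩
  let R : Set E := {x | ∃ y : ℕ → E, x = ∑ m ∈ Finset.range p, y m ^ p * t ^ m}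
  have hadd : ∀ a ∈ R, ∀ b ∈ R, a + b ∈ R := by
    rintro _ ⟨y, rfl⟩ _ ⟨z, rfl⟩
    refine ⟨fun m => y m + z m, ?_⟩
    rw [← Finset.sum_add_distrib]
    refine Finset.sum_congr rfl fun m _ => ?_
    rw [add_pow_char, add_mul]
  have h0 : (0 : E) ∈ R := by
    refine ⟨fun _ => 0, ?_⟩
    simp [hp.out.ne_zero]
  have h1 : (1 : E) ∈ R := by
    refine ⟨fun m => if m = 0 then 1 else 0, ?_⟩
    rw [hq, Finset.sum_range_succ']
    simp
  have hpw : ∀ w : E, ∀ a ∈ R, w ^ p * a ∈ R := by
    rintro w _ ⟨y, rfl⟩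
    refine ⟨fun m => w * y m, ?_⟩
    rw [Finset.mul_sum]
    refine Finset.sum_congr rfl fun m _ => ?_
    rw [mul_pow, mul_assoc]
  have ht : ∀ a ∈ R, t * a ∈ R := by
    rintro _ ⟨y, rfl⟩
    refine ⟨fun m => if m = 0 then y q * t else y (m - 1), ?_⟩
    have e1 : ∑ m ∈ Finset.range p, y m ^ p * t ^ m =
        ∑ m ∈ Finset.range (q + 1), y m ^ p * t ^ m := by rw [← hq]
    have e2 : ∑ m ∈ Finset.range p, (if m = 0 then y q * t else y (m - 1)) ^ p * t ^ m =
        ∑ m ∈ Finset.range (q + 1), (if m = 0 then y q * t else y (m - 1)) ^ p * t ^ m := by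
      rw [← hq]
    rw [e1, e2, Finset.sum_range_succ, Finset.sum_range_succ', mul_add, Finset.mul_sum]
    congr 1
    · refine Finset.sum_congr rfl fun m _ => ?_
      rw [if_neg (Nat.succ_ne_zero m), Nat.add_sub_cancel]
      ring
    · rw [if_pos rfl, mul_pow, pow_zero, mul_one]
      have : t * (y q ^ p * t ^ q) = y q ^ p * t ^ (q + 1) := by ring
      rw [this, ← hq]
  have hT : ∀ c ∈ κ⟮t⟯, ∀ a ∈ R, c * a ∈ R := by
    intro c hc
    refine IntermediateField.adjoin_induction κ (p := fun c _ => ∀ a ∈ R, c * a ∈ R)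
      ?_ ?_ ?_ ?_ ?_ hc
    · intro x hx
      rw [Set.mem_singleton_iff] at hx
      rw [hx]
      exact ht
    · intro x a ha
      obtain ⟨z, hz⟩ := IsAlgClosed.exists_pow_nat_eq x hp.out.pos
      rw [← hz, map_pow]
      exact hpw _ _ ha
    · intro x y _ _ hx hy a ha
      rw [add_mul]
      exact hadd _ (hx a ha) _ (hy a ha)
    · intro x _ hx a ha
      have hn : ∀ n : ℕ, ∀ a ∈ R, x ^ n * a ∈ R := by
        intro n
        induction n with
        | zero => intro a ha; rwa [pow_zero, one_mul]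
        | succ n ih =>
          intro a ha
          rw [pow_succ, mul_assoc]
          exact ih _ (hx a ha)
      rcases eq_or_ne x 0 with hx0 | hx0
      · rw [hx0, inv_zero, zero_mul]; exact h0
      · have e : x⁻¹ * a = (x⁻¹) ^ p * (x ^ q * a) := by
          rw [hq, pow_succ, inv_pow]
          field_simp
        rw [e]
        exact hpw _ _ (hn q a ha)
    · intro x y _ _ hx hy a ha
      rw [mul_assoc]
      exact hx _ (hy a ha)
  haveI : CharP κ⟮t⟯ p := charP_of_injective_algebraMap (algebraMap κ κ⟮t⟯).injective p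
  haveI : ExpChar κ⟮t⟯ p := inferInstance
  have hs := Field.span_map_pow_expChar_pow_eq_top_of_isSeparable (F := κ⟮t⟯) (E := E) p 1
    (v := (id : E → E)) (by rw [Set.range_id, Submodule.span_univ])
  have hx : x ∈ Submodule.span κ⟮t⟯ (Set.range fun i : E => id i ^ p ^ 1) := by
    rw [hs]; trivial
  show x ∈ R
  refine Submodule.span_induction (p := fun x _ => x ∈ R) ?_ h0 ?_ ?_ hx
  · rintro _ ⟨w, rfl⟩
    have := hpw w 1 h1
    rw [mul_one] at this
    simpa using this
  · intro a b _ _ ha hb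
    exact hadd _ ha _ hb
  · intro c a _ ha
    exact hT c.1 c.2 a ha

end Abs

end Fermat.Agent.PicZ
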