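import Fermat.Agent.PicZ.Forms
import Fermat.Agent.PicZ.Dlog
import Fermat.Agent.MazurP.HeckeMod
import Fermat.Agent.S23

/-!
# The integral lattice of cusp forms and its reductions
-/

set_option autoImplicit false
set_option linter.unusedSectionVars false
set_option linter.style.haveILetI false

open UpperHalfPlane MatrixGroups Matrix.SpecialLinearGroup Filter Function
open scoped Manifold Topology Real ComplexConjugate

noncomputable section

namespace Fermat.Agent.PicZ

open Fermat.Agent.DimS2 Fermat.Agent.ModFun CongruenceSubgroup Fermat.Agent.GenusX0 AlgebraicCurve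
open ModularCurve Fermat.Agent.AnJac Fermat.Agent.Carayol Fermat.Agent.MazurP
open Fermat.Agent.Curves hiding ord_pow
open ModularFormClass

local notation "ℒ" => LaurentSeries

variable {N : ℕ} [NeZero N]

theorem qs_coeff_nat (f : CuspForm (Gamma0 N) 2) (n : ℕ) : (qs f).coeff n = qCoeff f n := by
  rw [qs, HahnSeries.ofPowerSeries_apply_coeff]
  rfl

theorem qs_coeff_neg (f : CuspForm (Gamma0 N) 2) {n : ℤ} (hn : n < 0) : (qs f).coeff n = 0 := by
  rw [qs, ModularCurve.ofPowerSeries_coeff_of_neg _ hn]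

theorem qs_heckeOp {r : ℕ} [NeZero r] (hr : r.Prime) (hrN : ¬ r ∣ N) (f : CuspForm (Gamma0 N) 2) :
    qs (DSLift.heckeOp N 2 hr f) = trA r (qs f) := by
  have hr0 : (0 : ℤ) < r := by exact_mod_cast hr.pos
  ext n
  rw [trA_apply, HahnSeries.coeff_add, HahnSeries.coeff_smul, Uf_coeff]
  rcases lt_or_ge n 0 with hn | hn
  · rw [qs_coeff_neg _ hn, qs_coeff_neg _ (by nlinarith), add_zero]
    by_cases hd : (r : ℤ) ∣ n
    · obtain ⟨m, rfl⟩ := hd
      rw [qExpand_coeff_mul, qs_coeff_neg, smul_zero]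
      by_contra h
      push Not at h
      nlinarith
    · rw [qExpand_coeff_of_not_dvd r _ hd, smul_zero]
  · obtain ⟨m, rfl⟩ := Int.eq_ofNat_of_zero_le hn
    rw [qs_coeff_nat, DSLift.qCoeff_heckeOp, if_neg hrN]
    have e1 : (r : ℤ) * (m : ℤ) = ((m * r : ℕ) : ℤ) := by push_cast; ring
    rw [e1, qs_coeff_nat]
    have e2 : ((r : ℂ) ^ ((2 : ℤ) - 1)) = r := by norm_num
    rw [e2, add_comm, smul_eq_mul]
    congr 2
    by_cases hd : r ∣ m
    · obtain ⟨l, rfl⟩ := hd
      rw [if_pos (dvd_mul_right r l), Nat.mul_div_cancel_left _ hr.pos]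
      have e3 : ((r * l : ℕ) : ℤ) = (r : ℤ) * (l : ℤ) := by push_cast; ring
      rw [e3, qExpand_coeff_mul, qs_coeff_nat]
    · rw [if_neg hd, qExpand_coeff_of_not_dvd r _ (by exact_mod_cast hd)]

variable (N) in
/-- `q`-expansions as a linear map -/
def qsL : CuspForm (Gamma0 N) 2 →ₗ[ℂ] ℒ ℂ where
  toFun f := qs f
  map_add' f g := by
    ext n
    rw [HahnSeries.coeff_add]
    rcases lt_or_ge n 0 with hn | hn
    · rw [qs_coeff_neg _ hn, qs_coeff_neg _ hn, qs_coeff_neg _ hn, add_zero]
    · obtain ⟨m, rfl⟩ := Int.eq_ofNat_of_zero_le hn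
      rw [qs_coeff_nat, qs_coeff_nat, qs_coeff_nat]
      exact map_add (DSLift.qCoeffLin N 2 m) f g
  map_smul' c f := by
    ext n
    rw [RingHom.id_apply, HahnSeries.coeff_smul]
    rcases lt_or_ge n 0 with hn | hn
    · rw [qs_coeff_neg _ hn, qs_coeff_neg _ hn, smul_zero]
    · obtain ⟨m, rfl⟩ := Int.eq_ofNat_of_zero_le hn
      rw [qs_coeff_nat, qs_coeff_nat]
      exact map_smul (DSLift.qCoeffLin N 2 m) c f

theorem qsL_apply (f : CuspForm (Gamma0 N) 2) : qsL N f = qs f := rfl

variable {S : Set ℕ} (hSN : ∀ i : JS S, ¬ i.1 ∣ N)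

include hSN in
theorem qs_actS (P : FreeAlgebra ℤ (JS S)) : ∀ f : CuspForm (Gamma0 N) 2,
    qs (actS N (emb S P) f) = opL ℂ S P (qs f) := by
  induction P using FreeAlgebra.induction with
  | grade0 c =>
    intro f
    rw [AlgHom.commutes, AlgHom.commutes, AlgHom.commutes, eq_intCast, eq_intCast,
      Module.End.intCast_apply, Module.End.intCast_apply, ← qsL_apply, map_zsmul]
    rfl
  | grade1 i =>
    intro f
    haveI : NeZero i.1 := ⟨i.2.1.ne_zero⟩
    rw [emb, FreeAlgebra.lift_ι_apply, actS_ι, opL_ι, qs_heckeOp i.2.1 (hSN i)]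
  | mul P Q hP hQ =>
    intro f
    rw [map_mul, map_mul, map_mul, Module.End.mul_apply, Module.End.mul_apply, hP, hQ]
  | add P Q hP hQ =>
    intro f
    rw [map_add, map_add, map_add, LinearMap.add_apply, LinearMap.add_apply, ← hP, ← hQ,
      ← qsL_apply, map_add]
    rfl

include hSN in
theorem opL_qs {P : FreeAlgebra ℤ (JS S)} (hP : lat N P = 0) (f : CuspForm (Gamma0 N) 2) :
    opL ℂ S P (qs f) = 0 := by
  rw [← qs_actS hSN, actS_eq_zero (by rw [← lat_eq]; exact hP), LinearMap.zero_apply,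
    ← qsL_apply, map_zero]

/-! ### integral forms -/

theorem exists_iq (f : CuspForm.intLattice N 2) :
    ∃ x : ℒ ℤ, coeffMap (Int.castRingHom ℂ) x = qs f.1 := by
  choose a ha using (DSLift.mem_intLattice_iff (k := 2) f.1).1 f.2
  refine ⟨HahnSeries.ofPowerSeries ℤ ℤ (PowerSeries.mk a), ?_⟩
  rw [coeffMap_ofPowerSeries, qs]
  congr 1
  ext n
  rw [PowerSeries.coeff_map, PowerSeries.coeff_mk]
  exact (ha n).symm

theorem coeffMap_int_injective {K : Type*} [Field K] [CharZero K] :
    Injective (coeffMap (Int.castRingHom K)) := by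
  intro x y h
  ext m
  have := congrArg (fun F => HahnSeries.coeff F m) h
  simpa using this

variable (N) in
/-- integral `q`-expansions -/
def iq : CuspForm.intLattice N 2 →+ ℒ ℤ where
  toFun f := (exists_iq f).choose
  map_zero' := by
    apply coeffMap_int_injective (K := ℂ)
    rw [(exists_iq (0 : CuspForm.intLattice N 2)).choose_spec, map_zero]
    exact map_zero (qsL N)
  map_add' f g := by
    apply coeffMap_int_injective (K := ℂ)
    rw [map_add, (exists_iq (f + g)).choose_spec, (exists_iq f).choose_spec,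
      (exists_iq g).choose_spec]
    exact map_add (qsL N) f.1 g.1

theorem coeffMap_iq (f : CuspForm.intLattice N 2) :
    coeffMap (Int.castRingHom ℂ) (iq N f) = qs f.1 := (exists_iq f).choose_spec

include hSN in
theorem opL_iq {P : FreeAlgebra ℤ (JS S)} (hP : lat N P = 0) (f : CuspForm.intLattice N 2)
    {R : Type*} [CommRing R] : opL R S P (coeffMap (Int.castRingHom R) (iq N f)) = 0 := by
  rw [← coeffMap_opL]
  have h1 : opL ℤ S P (iq N f) = 0 := by
    apply coeffMap_int_injective (K := ℂ)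
    rw [coeffMap_opL, coeffMap_iq, opL_qs hSN hP, map_zero]
  rw [h1, map_zero]

/-- the mod `p` reductions of a basis are linearly independent -/
theorem linearIndependent_iq {ι κ : Type*} [Fintype ι] [Field κ] {p : ℕ} [Fact p.Prime]
    [CharP κ p] (b : Module.Basis ι ℤ (CuspForm.intLattice N 2)) :
    LinearIndependent κ fun i => coeffMap (Int.castRingHom κ) (iq N (b i)) := by
  classical
  letI : Algebra (ZMod p) κ := ZMod.algebra κ p
  rw [Fintype.linearIndependent_iff]
  intro c hc i
  rw [← Module.forall_dual_apply_eq_zero_iff (ZMod p)]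
  intro φ
  have hφ : ∀ (m : ℤ) (x : κ), φ (x * m) = φ x * m := by
    intro m x
    have e : x * (m : κ) = (m : ZMod p) • x := by
      rw [Algebra.smul_def, mul_comm]
      congr 1
      exact (map_intCast (algebraMap (ZMod p) κ) m).symm
    rw [e, map_smul, smul_eq_mul, mul_comm]
  let m : ι → ℤ := fun i => (φ (c i)).val
  have hm : ∀ i, ((m i : ℤ) : ZMod p) = φ (c i) := fun i => by
    simp [m]
  set g : CuspForm.intLattice N 2 := ∑ i, m i • b i with hg
  have hp0 : (p : ℂ) ≠ 0 := by exact_mod_cast (Fact.out : p.Prime).ne_zero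
  -- all coefficients are divisible by `p`
  have hdiv : ∀ n : ℤ, (p : ℤ) ∣ (iq N g).coeff n := by
    intro n
    rw [← ZMod.intCast_zmod_eq_zero_iff_dvd, hg, map_sum, HahnSeries.coeff_sum, Int.cast_sum]
    have h1 : ∀ i, (((iq N (m i • b i)).coeff n : ℤ) : ZMod p) =
        φ (c i * ((iq N (b i)).coeff n : ℤ)) := by
      intro i
      rw [hφ, map_zsmul, HahnSeries.coeff_smul, smul_eq_mul, Int.cast_mul, hm]
    rw [Finset.sum_congr rfl fun i _ => h1 i, ← map_sum]
    have h2 := congrArg (fun F => HahnSeries.coeff F n) hc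
    simp only [HahnSeries.coeff_sum, HahnSeries.coeff_smul, smul_eq_mul, coeffMap_coeff,
      eq_intCast, HahnSeries.coeff_zero] at h2
    rw [h2, map_zero]
  -- so `g / p` is integral
  have hmem : (p : ℂ)⁻¹ • g.1 ∈ CuspForm.intLattice N 2 := by
    rw [DSLift.mem_intLattice_iff]
    intro n
    obtain ⟨a, ha⟩ := hdiv n
    refine ⟨a, ?_⟩
    have h1 : qCoeff ((p : ℂ)⁻¹ • g.1 : CuspForm (Gamma0 N) 2) n = (p : ℂ)⁻¹ * qCoeff g.1 n :=
      map_smul (DSLift.qCoeffLin N 2 n) _ _
    rw [h1, ← qs_coeff_nat, ← coeffMap_iq, coeffMap_coeff, ha]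
    rw [eq_intCast]
    push_cast
    rw [← mul_assoc, inv_mul_cancel₀ hp0, one_mul]
  have hg' : g = (p : ℤ) • (⟨_, hmem⟩ : CuspForm.intLattice N 2) := by
    apply Subtype.ext
    rw [Submodule.coe_smul]
    change g.1 = (p : ℤ) • ((p : ℂ)⁻¹ • g.1)
    rw [← Int.cast_smul_eq_zsmul ℂ, smul_smul, Int.cast_natCast, mul_inv_cancel₀ hp0, one_smul]
  have h3 : b.repr g i = m i := by
    rw [hg, map_sum, Finsupp.finsetSum_apply, Finset.sum_eq_single i]
    · rw [map_smul, b.repr_self, Finsupp.smul_apply, Finsupp.single_eq_same, smul_eq_mul, mul_one]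
    · intro j _ hj
      rw [map_smul, b.repr_self, Finsupp.smul_apply, Finsupp.single_eq_of_ne (Ne.symm hj),
        smul_zero]
    · intro h
      exact absurd (Finset.mem_univ _) h
  have h4 : (p : ℤ) ∣ m i := by
    rw [← h3, hg', map_smul, Finsupp.smul_apply, smul_eq_mul]
    exact dvd_mul_right _ _
  rw [← hm i, ZMod.intCast_zmod_eq_zero_iff_dvd]
  exact h4

variable (N) in
/-- a basis of the lattice -/
theorem exists_basis : ∃ (r : ℕ) (_ : Module.Basis (Fin r) ℤ (CuspForm.intLattice N 2)),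
    gf N ≤ r := by
  haveI : Module.Finite ℤ (CuspForm.intLattice N 2) := CuspForm.intLattice.moduleFinite N
  haveI : Module.Free ℤ (CuspForm.intLattice N 2) := CuspForm.intLattice.moduleFree N
  refine ⟨_, Module.finBasis ℤ (CuspForm.intLattice N 2), ?_⟩
  have h1 : Submodule.span ℂ (Set.range fun i =>
      ((Module.finBasis ℤ (CuspForm.intLattice N 2) i : CuspForm.intLattice N 2) :
        CuspForm (Gamma0 N) 2)) = ⊤ := by
    rw [eq_top_iff, ← S23.result N, Submodule.span_le]
    intro f hf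
    have h2 := (Module.finBasis ℤ (CuspForm.intLattice N 2)).sum_repr ⟨f, hf⟩
    have h3 := congrArg Subtype.val h2
    rw [AddSubmonoidClass.coe_finsetSum] at h3
    change _ = f at h3
    rw [← h3]
    refine Submodule.sum_mem _ fun i _ => ?_
    rw [Submodule.coe_smul, ← Int.cast_smul_eq_zsmul ℂ]
    exact Submodule.smul_mem _ _ (Submodule.subset_span ⟨i, rfl⟩)
  have h2 := finrank_range_le_card (R := ℂ) (fun i =>
      ((Module.finBasis ℤ (CuspForm.intLattice N 2) i : CuspForm.intLattice N 2) :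
        CuspForm (Gamma0 N) 2))
  rw [Set.finrank, h1, finrank_top, Fintype.card_fin] at h2
  exact h2

end Fermat.Agent.PicZ
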