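import Fermat.Agent.PicZ.Canon

/-!
# The residue theorem on `X₀(N)` and a lower bound for the genus
-/

set_option autoImplicit false
set_option linter.unusedSectionVars false

noncomputable section

open ModularCurve UpperHalfPlane IntermediateField AlgebraicCurve
open scoped MatrixGroups KaehlerDifferential

namespace Fermat.Agent.PicZ

open Fermat.Agent.ModFun Fermat.Agent.DimS2 Fermat.Agent.Curves Fermat.Agent.GenusX0
open Fermat.Agent.PicFlat

theorem eq_on_adjoin {k F M : Type*} [Field k] [Field F] [Algebra k F] [Field M] {f g : F →+* M}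
    {t : F} (h1 : ∀ c, f (algebraMap k F c) = g (algebraMap k F c)) (h2 : f t = g t) :
    ∀ x ∈ k⟮t⟯, f x = g x := by
  intro x hx
  induction hx using IntermediateField.adjoin_induction with
  | mem x hx =>
    rw [Set.mem_singleton_iff] at hx
    rw [hx, h2]
  | algebraMap c => exact h1 c
  | add x y _ _ hx hy => rw [map_add, map_add, hx, hy]
  | inv x _ hx => rw [map_inv₀, map_inv₀, hx]
  | mul x y _ _ hx hy => rw [map_mul, map_mul, hx, hy]

/-- traces through embeddings -/
theorem exists_trace {k F M X : Type*} [Field k] [Field F] [Algebra k F] [Field M] [CharZero k]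
    [Fintype X] {t : F} (hfin : FiniteDimensional k⟮t⟯ F)
    (σ : X → F →+* M) (hinj : Function.Injective σ)
    (hX : Fintype.card X = Module.finrank k⟮t⟯ F) (ι : k →+* M)
    (hσ : ∀ x c, σ x (algebraMap k F c) = ι c) (ht : ∀ x y, σ x t = σ y t) (h : F) (y : X) :
    σ y (algebraMap k⟮t⟯ F (Algebra.trace k⟮t⟯ F h)) = ∑ x, σ x h := by
  classical
  have : CharZero k⟮t⟯ := charZero_of_injective_algebraMap (algebraMap k k⟮t⟯).injective
  let Ω := AlgebraicClosure M
  let φ : k⟮t⟯ →+* Ω := (algebraMap M Ω).comp ((σ y).comp (algebraMap k⟮t⟯ F))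
  let _ : Algebra k⟮t⟯ Ω := φ.toAlgebra
  have hφ : ∀ x (c : k⟮t⟯), algebraMap M Ω (σ x (algebraMap k⟮t⟯ F c)) = algebraMap k⟮t⟯ Ω c := by
    intro x c
    have h1 := eq_on_adjoin (f := σ x) (g := σ y) (t := t) (fun c => by rw [hσ, hσ]) (ht x y)
      (c : F) c.2
    change algebraMap M Ω (σ x (c : F)) = algebraMap M Ω (σ y (c : F))
    rw [h1]
  let ψ : X → (F →ₐ[k⟮t⟯] Ω) := fun x =>
    { (algebraMap M Ω).comp (σ x) with
      commutes' := fun c => hφ x c }
  have hψ : Function.Injective ψ := by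
    intro x x' hxx
    apply hinj
    ext f
    have h1 := DFunLike.congr_fun hxx f
    exact (algebraMap M Ω).injective h1
  have hcard : Fintype.card X = Fintype.card (F →ₐ[k⟮t⟯] Ω) := by
    rw [hX]
    exact (AlgHom.card k⟮t⟯ F Ω).symm
  have hbij : Function.Bijective ψ := (Fintype.bijective_iff_injective_and_card ψ).mpr ⟨hψ, hcard⟩
  apply (algebraMap M Ω).injective
  rw [hφ y, trace_eq_sum_embeddings Ω, map_sum]
  exact (Fintype.sum_bijective ψ hbij _ _ fun x => rfl).symm

theorem lt_order_sum {X : Type*} (s : Finset X) {L : Type*} [Field L] (F : X → LaurentSeries L)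
    (m : ℤ) (h : ∀ x ∈ s, m < (F x).order) (h0 : ∑ x ∈ s, F x ≠ 0) :
    m < (∑ x ∈ s, F x).order := by
  by_contra hcon
  push Not at hcon
  have h1 : (∑ x ∈ s, F x).coeff (∑ x ∈ s, F x).order ≠ 0 := by
    rw [← HahnSeries.leadingCoeff_eq]
    exact HahnSeries.leadingCoeff_ne_zero.mpr h0
  apply h1
  rw [HahnSeries.coeff_sum]
  refine Finset.sum_eq_zero fun x hx => ?_
  exact HahnSeries.coeff_eq_zero_of_lt_order (lt_of_le_of_lt hcon (h x hx))

variable {k : Type*} [Field k] [IsAlgClosed k] [CharZero k] (ι : k →+* ℂ) {N : ℕ} [NeZero N]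

local notation "FN" => modularFunctionFieldFullC k N

instance finite_je : FiniteDimensional k⟮je k N⟯ FN :=
  finiteDimensional_adjoin_simple (transcendental_je (k := k) (N := N))

/-- the trace to `k(j)` in terms of expansions -/
theorem sig_trace (U : UDN N) (h : FN) (y : GenusX0.Cos N) :
    sig ι U y (algebraMap k⟮je k N⟯ FN (Algebra.trace k⟮je k N⟯ FN h)) =
      ∑ x : GenusX0.Cos N, sig ι U x h := by
  refine exists_trace finite_je (sig ι U) (sig_injective ι U) ?_
    ((HahnSeries.C : ℂ →+* LaurentSeries ℂ).comp ι) (fun x c => sig_const ι U x c)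
    (fun x y => (sig_je ι U x).unique (sig_je ι U y)) h y
  rw [GenusX0.card_Cos, finrank_je]

theorem je_sub_ne (c : k) : je k N - algebraMap k FN c ≠ 0 := by
  intro h0
  apply transcendental_je_sub (k := k) (N := N) c
  rw [h0]
  exact isAlgebraic_zero

set_option maxHeartbeats 1600000 in
include ι in
/-- **no differential with exactly one simple pole at the cusp `∞`** -/
theorem no_simple_pole {K : Divisor k FN} (hK : IsCan K) :
    ∃ P : Place k FN, ∀ h : FN, h ≠ 0 → P.ord h = -(K P + 0 + 1) →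
      (∀ v, v ≠ P → 0 ≤ v.ord h + K v) → False := by
  classical
  have hC := isLoc_cusp (k := k) (N := N) ι
  set x₁ : GenusX0.Cos N := ((1 : SL(2, ℤ)) : GenusX0.Cos N) with hx₁
  set P := ctr hC x₁ with hP
  have hj0 : je k N ≠ 0 := fun h => transcendental_je (k := k) (N := N) (h ▸ isAlgebraic_zero)
  -- the fibre over `P`
  have hfib : ∀ x, ctr hC x = P → x = x₁ := by
    intro x hx
    obtain ⟨i, hi⟩ := (ctr_eq_iff hC x₁ x).mp hx.symm
    rw [hi]
    have h1 : ∀ i : ℕ, ((cuspUDN N).s⁻¹) ^ i • x₁ = x₁ := by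
      intro i
      have h2 : ((cuspUDN N).s⁻¹) ^ i • x₁ =
        ((((cuspUDN N).s⁻¹) ^ i * 1 : SL(2, ℤ)) : GenusX0.Cos N) := rfl
      rw [h2, hx₁, eq_comm, QuotientGroup.eq, mul_one, inv_one, one_mul]
      apply pow_mem
      apply inv_mem
      change ModularGroup.T ∈ _
      rw [CongruenceSubgroup.Gamma0_mem]
      simp [ModularGroup.T]
    exact h1 i
  have hP1 : P.ord (je k N)⁻¹ = 1 := by
    have h1 := card_ctr_fibre hC P (ctr_pos hC x₁)
    rw [← h1]
    have h2 : (Finset.univ.filter fun x => ctr hC x = P) = {x₁} := by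
      ext x
      rw [Finset.mem_filter, Finset.mem_singleton]
      exact ⟨fun h => hfib x h.2, fun h => ⟨Finset.mem_univ _, by rw [h]⟩⟩
    rw [h2, Finset.card_singleton]
    rfl
  refine ⟨P, fun h hh0 hhP hh => ?_⟩
  set r : FN := algebraMap k⟮je k N⟯ FN (Algebra.trace k⟮je k N⟯ FN h) with hr
  have hNpos : (0 : ℤ) < N := by exact_mod_cast Nat.pos_of_ne_zero (NeZero.ne N)
  -- the orders at the cusps
  have hcusp : ∀ x : GenusX0.Cos N, (N : ℤ) ≤ (sig ι (cuspUDN N) x h).order ∧
      (x ≠ x₁ → (N : ℤ) < (sig ι (cuspUDN N) x h).order) ∧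
      (x = x₁ → (sig ι (cuspUDN N) x h).order = N) := by
    intro x
    obtain ⟨ε, hε, hord⟩ := ctr_spec hC x
    have hpos := ctr_pos hC x
    have he : (N : ℤ) = ε * (ctr hC x).ord (je k N)⁻¹ := by
      obtain ⟨ξ, h1, h2⟩ := hC.fib
      have h3 := hord _ (inv_ne_zero hj0)
      rw [h1, h2] at h3
      exact h3
    have hKv : K (ctr hC x) = -(ctr hC x).ord (je k N)⁻¹ - 1 := by
      rw [hK.neg _ (by rw [Place.ord_inv] at hpos; omega), Place.ord_inv]
      ring
    have hεpos : (0 : ℤ) < ε := by exact_mod_cast hε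
    by_cases hx : x = x₁
    · have hcP : ctr hC x = P := by rw [hx]
      rw [hcP] at he hKv hord
      rw [hP1, mul_one] at he
      rw [hP1] at hKv
      have h3 : (sig ι (cuspUDN N) x h).order = N := by
        rw [hord h hh0, hhP, hKv, he]
        ring
      exact ⟨h3.ge, fun h => absurd hx h, fun _ => h3⟩
    · have hne : ctr hC x ≠ P := fun h => hx (hfib x h)
      have h3 := hh _ hne
      have h4 : (N : ℤ) < (sig ι (cuspUDN N) x h).order := by
        rw [hord h hh0, he]
        nlinarith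
      exact ⟨h4.le, fun _ => h4, fun h => absurd h hx⟩
  have hsum : (sig ι (cuspUDN N) x₁ r).coeff N ≠ 0 := by
    rw [hr, sig_trace, HahnSeries.coeff_sum, Finset.sum_eq_single x₁]
    · have h1 := (hcusp x₁).2.2 rfl
      rw [← h1, ← HahnSeries.leadingCoeff_eq]
      exact HahnSeries.leadingCoeff_ne_zero.mpr ((map_ne_zero _).mpr hh0)
    · intro x _ hx
      exact HahnSeries.coeff_eq_zero_of_lt_order ((hcusp x).2.1 hx)
    · intro h
      exact absurd (Finset.mem_univ _) h
  have hr0 : r ≠ 0 := by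
    intro h0
    apply hsum
    rw [h0, map_zero, HahnSeries.coeff_zero]
  have hsr : ∀ (U : UDN N) y, sig ι U y r = ∑ x : GenusX0.Cos N, sig ι U x h := fun U y => by
    rw [hr]; exact sig_trace ι U h y
  -- orders of `r`
  have hneg : ∀ v : Place k FN, v.ord (je k N) < 0 → 0 < v.ord r := by
    intro v hv
    obtain ⟨x, rfl⟩ := exists_ctr_eq hC (v := v) (by rw [v.ord_inv]; omega)
    obtain ⟨ε, hε, hord⟩ := ctr_spec hC x
    have h1 := lt_order_sum Finset.univ (fun x => sig ι (cuspUDN N) x h) 0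
      (fun x _ => lt_of_lt_of_le hNpos (hcusp x).1)
      (by rw [← hsr (cuspUDN N) x]; exact (map_ne_zero _).mpr hr0)
    rw [← hsr (cuspUDN N) x, hord r hr0] at h1
    have hεpos : (0 : ℤ) < ε := by exact_mod_cast hε
    exact (mul_pos_iff_of_pos_left hεpos).mp h1
  have hpos : ∀ (v : Place k FN) (c : k), 0 < v.ord (je k N - algebraMap k FN c) →
      0 ≤ v.ord r := by
    intro v c hv
    obtain ⟨Pt, _, _, hL⟩ := exists_isLoc (N := N) ι c
    obtain ⟨x, rfl⟩ := exists_ctr_eq hL hv
    have he' : ∀ x, ∃ ε : ℕ, 0 < ε ∧ ((Pt.toUDN N).e : ℤ) =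
        ε * (ctr hL x).ord (je k N - algebraMap k FN c) ∧
        ∀ f, f ≠ 0 → (sig ι (Pt.toUDN N) x f).order = ε * (ctr hL x).ord f := by
      intro x
      obtain ⟨ε, hε, hord⟩ := ctr_spec hL x
      refine ⟨ε, hε, ?_, hord⟩
      obtain ⟨ξ, h1, h2⟩ := hL.fib
      have h3 := hord _ (je_sub_ne c)
      rw [h1, h2] at h3
      exact h3
    have h1 := lt_order_sum Finset.univ (fun x => sig ι (Pt.toUDN N) x h)
      (-((Pt.toUDN N).e : ℤ)) (fun x _ => by
        obtain ⟨ε, hε, he, hord⟩ := he' x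
        have hp := ctr_pos hL x
        have hεpos : (0 : ℤ) < ε := by exact_mod_cast hε
        have hne : ctr hL x ≠ P := by
          intro h0
          have h5 : 0 < P.ord (je k N)⁻¹ := by rw [hP1]; exact one_pos
          rw [Place.ord_inv] at h5
          rw [h0] at hp
          have h6 : 0 ≤ P.ord (je k N) := by
            rw [← mem_iff_ord P hj0]
            have h7 : je k N - algebraMap k FN c ∈ P.toValuationSubring :=
              (mem_iff_ord P (je_sub_ne c)).2 hp.le
            have := add_mem h7 (P.algebraMap_mem' c)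
            rwa [sub_add_cancel] at this
          omega
        have h3 := hh _ hne
        rw [hK.pos _ c hp] at h3
        rw [hord h hh0, he]
        nlinarith)
      (by rw [← hsr (Pt.toUDN N) x]; exact (map_ne_zero _).mpr hr0)
    obtain ⟨ε, hε, he, hord⟩ := he' x
    rw [← hsr (Pt.toUDN N) x, hord r hr0, he] at h1
    have hεpos : (0 : ℤ) < ε := by exact_mod_cast hε
    obtain ⟨m, hm⟩ := dvd_ord_adjoin (ctr hL x) hv (Algebra.trace k⟮je k N⟯ FN h)
    have hm' : (ctr hL x).ord r = (ctr hL x).ord (je k N - algebraMap k FN c) * m := hm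
    rw [hm'] at h1 ⊢
    set w := (ctr hL x).ord (je k N - algebraMap k FN c) with hw
    have h2 : 0 < ε * w * (m + 1) := by nlinarith
    have h3 : (0 : ℤ) < ε * w := mul_pos hεpos hv
    have h4 : 0 < m + 1 := (mul_pos_iff_of_pos_left h3).mp h2
    have h5 : 0 ≤ m := by omega
    exact mul_nonneg hv.le h5
  have hmem : r ∈ riemannRochSpace (0 : Divisor k FN) := by
    rw [mem_iff_of_ne hr0]
    intro v
    rw [Finsupp.zero_apply, add_zero]
    rcases place_cases v with h3 | ⟨c, hc⟩
    · exact (hneg v h3).le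
    · exact hpos v c hc
  obtain ⟨c, hc⟩ := Submodule.mem_span_singleton.mp (riemannRochSpace_zero_le hmem)
  have h1 : 0 < P.ord r := by
    apply hneg
    have h5 : 0 < P.ord (je k N)⁻¹ := by rw [hP1]; exact one_pos
    rw [Place.ord_inv] at h5
    omega
  rw [← hc, Algebra.smul_def, mul_one, ord_algebraMap] at h1
  exact absurd h1 (lt_irrefl _)

include ι in
/-- the index of speciality of the canonical divisor is positive -/
theorem index_pos {K : Divisor k FN} (hK : IsCan K) {g c : ℤ} (h : RR k FN g c) :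
    Divisor.degree K + 1 - g < ell K := by
  by_contra hcon
  push Not at hcon
  obtain ⟨P, hP⟩ := no_simple_pole ι hK
  have h1 := h.le (K + Finsupp.single P 1)
  rw [degree_add_single] at h1
  have h2 : ell (K + Finsupp.single P 0) < ell (K + Finsupp.single P (0 + 1)) := by
    rw [zero_add, Finsupp.single_zero, add_zero]
    omega
  obtain ⟨f, hf0, hf1, hf2⟩ := exists_jump h2
  exact hP f hf0 hf1 fun v hv => hf2 v hv

include ι in
/-- **lower bound for the genus** -/
theorem genus_ge {g c : ℤ} (h : RR k FN g c) : (gf N : ℤ) - 1 ≤ g := by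
  obtain ⟨K, hK⟩ := exists_isCan (k := k) (N := N) ι
  have h1 := index_pos ι hK h
  have h2 := h.le K
  rw [hK.deg] at h1 h2
  rcases Nat.eq_zero_or_pos (ell K) with h0 | h0
  · omega
  · have h3 := clifford h h0 (by rw [hK.deg]; exact h1)
    rw [hK.deg] at h3
    omega

end Fermat.Agent.PicZ
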