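import Fermat.Agent.PicZ.Abs
import Fermat.Agent.PicZ.Res
import Fermat.Agent.PicZ.Lattice
import Fermat.Agent.PicFlat.Equal
import Fermat.Agent.PicFlat.Spec
import Fermat.Agent.TorLift.ModInst

/-!
# Reduction of the canonical divisor of `X₀(M)`
-/

set_option autoImplicit false
set_option linter.unusedSectionVars false
set_option linter.style.haveILetI false
set_option synthInstance.maxHeartbeats 400000

noncomputable section

namespace Fermat.Agent.PicZ

open Polynomial AlgebraicCurve Fermat.Agent.Curves Module IntermediateField ModularCurve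
open Fermat.Agent.GoodRed Fermat.Agent.PicFlat Fermat.Agent.Carayol Fermat.Agent.SSMod
open Fermat.Agent.GenusX0 (je transcendental_je thetaFun thetaFun_coeff thetaFun_mul)

local notation "ℒ" => LaurentSeries

variable {K κ : Type*} [Field K] [Field κ] {A : ValuationSubring K} {π : A →+* κ}
  [IsLocalHom π] [IsAlgClosed K] [IsAlgClosed κ] [CharZero K] {M : ℕ} [NeZero M]
  {hπ : Function.Surjective π} {hNK : (M : K) ≠ 0} {hNκ : (M : κ) ≠ 0}


theorem theta_j_ne (k : Type*) [Field k] : thetaFun (jqModC k) ≠ 0 := by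
  intro h
  have h1 := congrArg (fun x => HahnSeries.coeff x (-1)) h
  simp only [thetaFun_coeff, HahnSeries.coeff_zero, coeff_jqModC_neg_one] at h1
  norm_num at h1

theorem LR_j : LR π (jqModC K) (jqModC κ) := by
  have h := LR.of (π := π) (jqModC A)
  rwa [coeffMap_jqModC, coeffMap_jqModC] at h

/-- the derivation `d/dj` commutes with reduction -/
theorem LR_delta {x d : ℒ K} {y : ℒ κ} (h : LR π x y)
    (hd : thetaFun x = d * thetaFun (jqModC K)) :
    LR π d (thetaFun y / thetaFun (jqModC κ)) := by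
  have h1 := LR.div (LR_theta h) (LR_theta (LR_j (π := π))) (theta_j_ne κ)
  rwa [hd, mul_div_cancel_right₀ _ (theta_j_ne K)] at h1

section

variable {Kc : Divisor K (modularFunctionFieldFullC K M)}

theorem exists_dj (hπ : Function.Surjective π) (hNK : (M : K) ≠ 0) (hNκ : (M : κ) ≠ 0)
    (hK : IsCan Kc) (y : (modularFunctionFieldFullC κ M)) :
    ∃ w : (modularFunctionFieldFullC κ M), (w : ℒ κ) = thetaFun (y : ℒ κ) / thetaFun (jqModC κ) := by
  obtain ⟨x, hx, hxy⟩ := TorLift.lift_N π M hπ hNK hNκ y.2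
  obtain ⟨d, hd, -⟩ := hK.del (⟨x, hx⟩ : (modularFunctionFieldFullC K M))
  exact ⟨⟨_, TorLift.red_mem_N π M hπ hNK hNκ d.2 (LR_delta hxy hd)⟩, rfl⟩

/-- the derivation `d/dj` on the function field in characteristic `p` -/
structure DJ (δ : (modularFunctionFieldFullC κ M) → (modularFunctionFieldFullC κ M)) : Prop where
  spec : ∀ y : (modularFunctionFieldFullC κ M), ((δ y : (modularFunctionFieldFullC κ M)) : ℒ κ) = thetaFun (y : ℒ κ) / thetaFun (jqModC κ)

theorem DJ.mul {δ : (modularFunctionFieldFullC κ M) → (modularFunctionFieldFullC κ M)} (h : DJ δ) (x y : (modularFunctionFieldFullC κ M)) : δ (x * y) = x * δ y + y * δ x := by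
  apply Subtype.ext
  change (δ (x * y) : ℒ κ) = (x : ℒ κ) * (δ y : ℒ κ) + (y : ℒ κ) * (δ x : ℒ κ)
  rw [h.spec, h.spec, h.spec]
  have e : ((x * y : (modularFunctionFieldFullC κ M)) : ℒ κ) = (x : ℒ κ) * (y : ℒ κ) := rfl
  rw [e, thetaFun_mul]
  ring

theorem exists_DJ (hπ : Function.Surjective π) (hNK : (M : K) ≠ 0) (hNκ : (M : κ) ≠ 0)
    (hK : IsCan Kc) : ∃ δ : (modularFunctionFieldFullC κ M) → (modularFunctionFieldFullC κ M), DJ δ := by
  choose δ hδ using fun y : (modularFunctionFieldFullC κ M) => exists_dj hπ hNK hNκ hK y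
  exact ⟨δ, ⟨hδ⟩⟩

variable [IsFunctionField κ (modularFunctionFieldFullC κ M)]

/-- the bound on one chart -/
theorem geO_chart (C : RedCurve (modGauss π M hπ hNK hNκ)) {δ : (modularFunctionFieldFullC κ M) → (modularFunctionFieldFullC κ M)} (hδ : DJ δ)
    {t : (modularFunctionFieldFullC K M)} {tb : (modularFunctionFieldFullC κ M)} (hc : GoodChart (modGauss π M hπ hNK hNκ) t tb) {Q : Place κ (modularFunctionFieldFullC κ M)}
    (hQ : ∀ P, C.rd P = Q → t ∈ P.toValuationSubring) {a : (modularFunctionFieldFullC κ M)} (ha : a ∈ affineRing κ tb)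
    (hK : IsCan Kc) : GeO Q (-C.red Kc Q) (δ a) := by
  obtain ⟨x, hx, hxa⟩ := hc.lift a ha
  obtain ⟨d, hd, hd2⟩ := hK.del x
  have hR : (modGauss π M hπ hNK hNκ).R d (δ a) := by
    rw [modGauss_R] at hxa ⊢
    rw [hδ.spec]
    exact LR_delta hxa hd
  by_cases h0 : δ a = 0
  · exact Or.inl h0
  right
  have hd0 : d ≠ 0 := hR.ne_zero h0
  have h1 : 0 ≤ C.red (divisorOf d + Kc) Q := by
    apply C.red_apply_nonneg
    intro P hP
    have h2 := hd2 P (hx P (hQ P hP))
    have h3 := h2.resolve_left hd0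
    rw [Finsupp.add_apply, divisorOf_apply]
    omega
  rw [map_add, C.red_div hR h0, Finsupp.add_apply, divisorOf_apply] at h1
  omega

variable (h1 : GoodChart (modGauss π M hπ hNK hNκ) (je K M) (je κ M))
  (h2 : GoodChart (modGauss π M hπ hNK hNκ) (je K M)⁻¹ (je κ M)⁻¹)

/-- **differentials: regularity of derivatives in characteristic `p`** -/
theorem geO_DJ {δ : (modularFunctionFieldFullC κ M) → (modularFunctionFieldFullC κ M)} (hδ : DJ δ) (hK : IsCan Kc) {Q : Place κ (modularFunctionFieldFullC κ M)} {x : (modularFunctionFieldFullC κ M)}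
    (hx : x ∈ Q.toValuationSubring) :
    GeO Q (-(ofCharts h1 h2).red Kc Q) (δ x) := by
  by_cases hQ : je κ M ∈ Q.toValuationSubring
  · refine geO_of_affine hδ.mul h1.trb hQ (fun a ha => ?_) hx
    exact geO_chart (ofCharts h1 h2) hδ h1
      (fun P hP => ((redPlace_eq_iff1 h1 h2 hQ).1 hP).1) ha hK
  · have hQ' : (je κ M)⁻¹ ∈ Q.toValuationSubring :=
      (Q.toValuationSubring.mem_or_inv_mem _).resolve_left hQ
    refine geO_of_affine hδ.mul h2.trb hQ' (fun a ha => ?_) hx
    exact geO_chart (ofCharts h1 h2) hδ h2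
      (fun P hP => ((redPlace_eq_iff2 h1 h2 hQ).1 hP).1) ha hK

/-- **logarithmic differentials** -/
theorem dlog_mem {p : ℕ} [Fact p.Prime] [CharP κ p] {δ : (modularFunctionFieldFullC κ M) → (modularFunctionFieldFullC κ M)} (hδ : DJ δ)
    (hK : IsCan Kc) {v : (modularFunctionFieldFullC κ M)} (hv0 : v ≠ 0) (hv : ∀ Q : Place κ (modularFunctionFieldFullC κ M), (p : ℤ) ∣ Q.ord v) :
    δ v / v ∈ riemannRochSpace ((ofCharts h1 h2).red Kc) := by
  rw [mem_RR_iff]
  intro Q
  exact geO_dlog hδ.mul (fun x hx => geO_DJ h1 h2 hδ hK hx) hv0 (hv Q)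

/-- **the upper bound for the dimension in characteristic `p`** -/
theorem ell_red_le (hr : RankOne π) (ι : K →+* ℂ) (hK : IsCan Kc) :
    ell ((ofCharts h1 h2).red Kc) ≤ gf M := by
  obtain ⟨g, c, hRK, hRκ⟩ := exists_RR_both h1 h2 hr
  have hg := genus_ge ι hRK
  have hdeg : Divisor.degree ((ofCharts h1 h2).red Kc) = 2 * (gf M : ℤ) - 2 := by
    rw [RedCurve.degree_red, hK.deg]
  rcases Nat.eq_zero_or_pos (ell ((ofCharts h1 h2).red Kc)) with h0 | h0
  · omega
  have h3 := hRκ.le ((ofCharts h1 h2).red Kc)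
  rcases lt_or_eq_of_le h3 with h4 | h4
  · have h5 := clifford hRκ h0 h4
    omega
  · omega

end

end Fermat.Agent.PicZ
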