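import Fermat.Agent.PicZ.RedK
import Fermat.Agent.PicZ.KerTheta
import Fermat.Agent.MazurP.LiftH

/-!
# Regular differentials in characteristic `p` come from integral cusp forms
-/

set_option autoImplicit false
set_option linter.unusedSectionVars false
set_option linter.style.haveILetI false
set_option synthInstance.maxHeartbeats 400000

noncomputable section

namespace Fermat.Agent.PicZ

open Polynomial AlgebraicCurve Fermat.Agent.Curves Module IntermediateField ModularCurve
open Fermat.Agent.GoodRed Fermat.Agent.PicFlat Fermat.Agent.Carayol Fermat.Agent.SSMod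
open Fermat.Agent.AnJac Fermat.Agent.MazurP
open Fermat.Agent.GenusX0 (je transcendental_je thetaFun thetaFun_coeff thetaFun_mul)

local notation "ℒ" => LaurentSeries

theorem th_eq_thetaFun {k : Type*} [Field k] (x : ℒ k) : th x = thetaFun x := by
  ext n
  rw [th_coeff, thetaFun_coeff]

theorem coeffMap_cast {R R' : Type*} [CommRing R] [CommRing R'] (φ : R →+* R') (x : ℒ ℤ) :
    coeffMap φ (coeffMap (Int.castRingHom R) x) = coeffMap (Int.castRingHom R') x := by
  ext n
  simp

section

variable {K κ : Type*} [Field K] [Field κ] {A : ValuationSubring K} {π : A →+* κ}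
  [IsLocalHom π] [IsAlgClosed K] [IsAlgClosed κ] [CharZero K] {M : ℕ} [NeZero M]
  {hπ : Function.Surjective π} {hNK : (M : K) ≠ 0} {hNκ : (M : κ) ≠ 0}
  {Kc : Divisor K (modularFunctionFieldFullC K M)}
  [IsFunctionField κ (modularFunctionFieldFullC κ M)]

/-- reductions of integral cusp forms -/
theorem exists_hb (C : RedCurve (modGauss π M hπ hNK hNκ)) (ι : K →+* ℂ) (hK : IsCan Kc)
    (f : CuspForm.intLattice M 2) :
    ∃ w : modularFunctionFieldFullC κ M,
      (w : ℒ κ) * thetaFun (jqModC κ) = coeffMap (Int.castRingHom κ) (iq M f) ∧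
      w ∈ riemannRochSpace (C.red Kc) := by
  have hx : coeffMap ι (coeffMap (Int.castRingHom K) (iq M f)) = qs f.1 := by
    rw [coeffMap_cast, coeffMap_iq]
  obtain ⟨h, hh⟩ := exists_h ι hx
  have h1 : LR π (coeffMap (Int.castRingHom K) (iq M f)) (coeffMap (Int.castRingHom κ) (iq M f)) := by
    have h2 := LR.of (π := π) (coeffMap (Int.castRingHom A) (iq M f))
    rw [coeffMap_cast, coeffMap_cast] at h2
    exact h2
  have h3 : LR π (h : ℒ K) (coeffMap (Int.castRingHom κ) (iq M f) / thetaFun (jqModC κ)) := by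
    have h4 := LR.div h1 (LR_theta (LR_j (π := π))) (theta_j_ne κ)
    rwa [← hh, mul_div_cancel_right₀ _ (theta_j_ne K)] at h4
  refine ⟨⟨_, TorLift.red_mem_N π M hπ hNK hNκ h.2 h3⟩, div_mul_cancel₀ _ (theta_j_ne κ), ?_⟩
  rw [mem_RR_iff]
  intro Q
  by_cases hw0 : (⟨_, TorLift.red_mem_N π M hπ hNK hNκ h.2 h3⟩ :
      modularFunctionFieldFullC κ M) = 0
  · exact Or.inl hw0
  right
  have hR : (modGauss π M hπ hNK hNκ).R h ⟨_, TorLift.red_mem_N π M hπ hNK hNκ h.2 h3⟩ :=
    (modGauss_R π M).2 h3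
  have hh0 : h ≠ 0 := hR.ne_zero hw0
  have h5 : 0 ≤ C.red (divisorOf h + Kc) Q := by
    apply C.red_apply_nonneg
    intro P _
    have h6 := le_ord_h ι hK hx hh hh0 P
    rw [Finsupp.add_apply, divisorOf_apply]
    omega
  rw [map_add, C.red_div hR hw0, Finsupp.add_apply, divisorOf_apply] at h5
  omega

variable (h1 : GoodChart (modGauss π M hπ hNK hNκ) (je K M) (je κ M))
  (h2 : GoodChart (modGauss π M hπ hNK hNκ) (je K M)⁻¹ (je κ M)⁻¹)

variable (κ M) in
/-- multiplication by `dj` -/
def mulT : modularFunctionFieldFullC κ M →ₗ[κ] ℒ κ where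
  toFun w := (w : ℒ κ) * thetaFun (jqModC κ)
  map_add' a b := by
    show ((a + b : modularFunctionFieldFullC κ M) : ℒ κ) * _ = _
    rw [← add_mul]; rfl
  map_smul' c a := by
    have e : ((c • a : modularFunctionFieldFullC κ M) : ℒ κ) = c • (a : ℒ κ) := by
      rw [← HahnSeries.C_mul_eq_smul, ModFun.C_eq_algebraMap, Algebra.smul_def]
      rfl
    show ((c • a : modularFunctionFieldFullC κ M) : ℒ κ) * thetaFun (jqModC κ) =
      c • ((a : ℒ κ) * thetaFun (jqModC κ))
    rw [e, ← HahnSeries.C_mul_eq_smul, ← HahnSeries.C_mul_eq_smul, mul_assoc]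

/-- **Hecke polynomials killing the lattice kill the regular differentials mod `p`** -/
theorem opL_eq_zero {p : ℕ} [Fact p.Prime] [CharP κ p] (hr : RankOne π) (ι : K →+* ℂ)
    (hK : IsCan Kc) {S : Set ℕ} (hSM : ∀ i : JS S, ¬ i.1 ∣ M) {P : FreeAlgebra ℤ (JS S)}
    (hP : lat M P = 0) {w : modularFunctionFieldFullC κ M}
    (hw : w ∈ riemannRochSpace ((ofCharts h1 h2).red Kc)) :
    opL κ S P ((w : ℒ κ) * thetaFun (jqModC κ)) = 0 := by
  classical
  obtain ⟨r, b, hb⟩ := exists_basis M
  choose v hv hvm using fun i : Fin r => exists_hb (ofCharts h1 h2) ι hK (b i)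
  have hli : LinearIndependent κ v := by
    apply LinearIndependent.of_comp (mulT κ M)
    have h3 := linearIndependent_iq (κ := κ) (p := p) b
    have e : (mulT κ M) ∘ v = fun i => coeffMap (Int.castRingHom κ) (iq M (b i)) := by
      funext i
      exact hv i
    rw [e]
    exact h3
  set L := riemannRochSpace ((ofCharts h1 h2).red Kc) with hL
  let v' : Fin r → L := fun i => ⟨v i, hvm i⟩
  have hli' : LinearIndependent κ v' := by
    apply LinearIndependent.of_comp L.subtype
    exact hli
  have hfr : finrank κ L ≤ gf M := ell_red_le h1 h2 hr ι hK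
  have hcard := hli'.fintype_card_le_finrank
  rw [Fintype.card_fin] at hcard
  have hspan := hli'.span_eq_top_of_card_eq_finrank' (by rw [Fintype.card_fin]; omega)
  let φ : L →ₗ[κ] ℒ κ := (opL κ S P).comp ((mulT κ M).comp L.subtype)
  have hφ : φ = 0 := by
    apply LinearMap.ext_on hspan
    rintro _ ⟨i, rfl⟩
    show opL κ S P ((v i : ℒ κ) * thetaFun (jqModC κ)) = 0
    rw [hv i]
    exact opL_iq hSM hP (b i)
  exact LinearMap.congr_fun hφ ⟨w, hw⟩

end

end Fermat.Agent.PicZ
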